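import Fermat.Agent.Carayol.Omega.Field

/-!
# The labels are determined up to sign
-/

set_option autoImplicit false

noncomputable section

open UpperHalfPlane hiding I
open Complex
open scoped MatrixGroups

namespace Fermat.Agent.Carayol.Omega

open Fermat.Agent.ModFun Fermat.Agent.Mazur.Small
open WeierstrassCurve.Affine (Point)

theorem exists_fA_fB_ne : ∃ τ : ℍ, fA τ ≠ 0 ∧ fB τ ≠ 0 := by
  by_contra hall
  push Not at hall
  have h : (⟨fA, fA_mem 1⟩ : CuspAlg 1) * ⟨fB, fB_mem 1⟩ = 0 := Subtype.ext (funext fun τ => by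
    show fA τ * fB τ = 0
    by_cases h0 : fA τ = 0
    · rw [h0, zero_mul]
    · rw [hall τ h0, mul_zero])
  rcases mul_eq_zero.mp h with h | h
  · refine EisensteinSeries.E_ne_zero (k := 4) (by norm_num) ⟨2, rfl⟩ ?_
    ext τ
    have := congrFun (congrArg Subtype.val h) τ
    simpa [fA] using this
  · refine EisensteinSeries.E_ne_zero (k := 6) (by norm_num) ⟨3, rfl⟩ ?_
    ext τ
    have := congrFun (congrArg Subtype.val h) τ
    simpa [fB] using this

/-- The Tate coordinates of the missing label `0` are functions of `b`, `c`. -/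
theorem tate_zero_coords {F : Type*} [Field F] [CharZero F] {a b x y : F}
    (h3 : tateA3 (⟨0, 0, 0, a, b⟩ : WeierstrassCurve F).toAffine x y ≠ 0) :
    let W : WeierstrassCurve F := ⟨0, 0, 0, a, b⟩
    let B := tateB W.toAffine x y
    let C := tateC W.toAffine x y
    tateX W x y 0 = -((1 - C) ^ 2 - 4 * B) / 12 ∧
      tateY W x y 0 0 = B / 2 + (1 - C) / 2 * (((1 - C) ^ 2 - 4 * B) / 12) := by
  intro W B C
  have e3 : tateA3 W.toAffine x y = 2 * y := by simp [W, tateA3]
  have e1 : tateA1 W.toAffine x y = 2 * tateLam W.toAffine x y := by simp [W, tateA1]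
  have e2 : tateA2 W.toAffine x y = 3 * x - tateLam W.toAffine x y ^ 2 := by simp [W, tateA2]
  simp only [B, C, tateX, tateY, tateB, tateC, e1]
  rw [e3] at h3 ⊢
  have hy : y ≠ 0 := fun h => h3 (by rw [h, mul_zero])
  constructor
  · field_simp
    linear_combination (4 * tateA2 W.toAffine x y ^ 2) * e2
  · field_simp
    linear_combination (-4 * tateLam W.toAffine x y * tateA2 W.toAffine x y ^ 3) * e2

/-- A scaling of the equation at two different abscissae with nonzero coefficients is a sign. -/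
private theorem eq_one_or_neg_one_of_scale {F : Type*} [Field F] {A B μ x x' : F} (hA : A ≠ 0)
    (hB : B ≠ 0) (hμ0 : μ ≠ 0) (hne : x ≠ x')
    (e₁ : μ ^ 2 * A * (μ ^ 4 - 1) * x + B * (μ ^ 6 - 1) = 0)
    (e₂ : μ ^ 2 * A * (μ ^ 4 - 1) * x' + B * (μ ^ 6 - 1) = 0) : μ = 1 ∨ μ = -1 := by
  have e' : μ ^ 2 * A * (μ ^ 4 - 1) * (x - x') = 0 := by linear_combination e₁ - e₂
  have h4 : μ ^ 4 = 1 := sub_eq_zero.mp <| ((mul_eq_zero.mp <|
    ((mul_eq_zero.mp e').resolve_right (sub_ne_zero.mpr hne)))).resolve_left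
      (mul_ne_zero (pow_ne_zero _ hμ0) hA)
  rw [h4, sub_self, mul_zero, zero_mul, zero_add] at e₁
  have h6 : μ ^ 6 = 1 := sub_eq_zero.mp ((mul_eq_zero.mp e₁).resolve_left hB)
  exact sq_eq_one_iff.mp (by linear_combination h6 - μ ^ 2 * h4)

/-- A good point and its double have different abscissae. -/
private theorem fX_ne_fX_two_smul {n : ℕ} [NeZero n] {P : ZMod n × ZMod n} (hP : GoodPt P)
    (τ : ℍ) : fX n P τ ≠ fX n (2 • P) τ := by
  intro e
  obtain ⟨a, ea⟩ := torsHom_apply τ hP.ne_zero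
  obtain ⟨b, eb⟩ := torsHom_apply τ hP.1
  rcases (Point.X_eq_iff (h₁ := a) (h₂ := b)).mp e with e' | e'
  · have h := torsHom_injective τ (by rw [ea, eb, e'] : torsHom τ P = torsHom τ (2 • P))
    rw [two_nsmul, left_eq_add] at h
    exact hP.ne_zero h
  · have h := torsHom_injective τ
      (by rw [map_neg, ea, eb, e'] : torsHom τ P = torsHom τ (-(2 • P)))
    exact hP.2 (by rw [succ_nsmul, add_comm]; exact eq_neg_iff_add_eq_zero.mp h)

/-- An invertible matrix sends nonzero labels to nonzero labels. -/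
private theorem vm_ne_zero {n : ℕ} {M : Matrix (Fin 2) (Fin 2) (ZMod n)} (hM : IsUnit M)
    (v : ZMod n × ZMod n) (hv : v ≠ 0) : vm v M ≠ 0 := fun h0 => hv (by
  obtain ⟨w, rfl⟩ := hM
  have h1 := congrArg (fun z => vm z (↑w⁻¹ : Matrix (Fin 2) (Fin 2) (ZMod n))) h0
  simp only [← vm_mul, Units.mul_inv, vm_one] at h1
  rw [h1]; simp [Omega.vm])

/-- A matrix of labels acting on the torsion points of the curve at `τ` by a scaling of the
Weierstrass equation is `±1`. -/
private theorem eq_one_or_neg_one_of_key {n : ℕ} [NeZero n] {M : Matrix (Fin 2) (Fin 2) (ZMod n)}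
    (hM : IsUnit M) {P : ZMod n × ZMod n} (hP : GoodPt P) {τ : ℍ} (hA : fA τ ≠ 0)
    (hB0 : fB τ ≠ 0) {μ : ℂ} (hμ0 : μ ≠ 0)
    (key : ∀ v, fX n (vm v M) τ = μ ^ 2 * fX n v τ ∧ fY n (vm v M) τ = μ ^ 3 * fY n v τ) :
    M = 1 ∨ M = -1 := by
  classical
  have hcurve : ∀ v, v ≠ 0 → fY n v τ ^ 2 = fX n v τ ^ 3 + fA τ * fX n v τ + fB τ := fun v hv => by
    obtain ⟨h, -⟩ := torsHom_apply τ hv
    have := (WeierstrassCurve.Affine.equation_iff _ _).mp h.1
    simpa [curveAt] using this
  have hvM : ∀ v : ZMod n × ZMod n, v ≠ 0 → vm v M ≠ 0 := vm_ne_zero hM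
  -- the scaling maps the curve to itself, so `μ = ±1`
  have hlin : ∀ v, v ≠ 0 → μ ^ 2 * fA τ * (μ ^ 4 - 1) * fX n v τ + fB τ * (μ ^ 6 - 1) = 0 :=
    fun v hv => by
      have e := hcurve _ (hvM v hv)
      rw [(key v).1, (key v).2] at e
      linear_combination e - μ ^ 6 * hcurve v hv
  have hne : fX n P τ ≠ fX n (2 • P) τ := fX_ne_fX_two_smul hP τ
  have hs : μ = 1 ∨ μ = -1 :=
    eq_one_or_neg_one_of_scale hA hB0 hμ0 hne (hlin P hP.ne_zero) (hlin (2 • P) hP.1)
  -- so `M` is `±1` on all labels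
  have hlab : ∀ v, v ≠ 0 → torsHom τ (vm v M) = torsHom τ (if μ = 1 then v else -v) := by
    intro v hv
    obtain ⟨a, ea⟩ := torsHom_apply τ hv
    obtain ⟨b, eb⟩ := torsHom_apply τ (hvM v hv)
    rcases hs with hs | hs
    · rw [if_pos hs, ea, eb]
      simp only [Point.some.injEq]
      rw [(key v).1, (key v).2, hs]
      exact ⟨by ring, by ring⟩
    · rw [if_neg (by rw [hs]; norm_num), map_neg, ea, eb, Point.neg_some]
      simp only [Point.some.injEq]
      rw [(key v).1, (key v).2, hs]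
      refine ⟨by ring, ?_⟩
      simp [WeierstrassCurve.Affine.negY, curveAt]
      ring
  have : Nontrivial (ZMod n) := by
    by_contra hn
    rw [not_nontrivial_iff_subsingleton] at hn
    exact hP.ne_zero (Subsingleton.elim _ _)
  have h10 : ((1 : ZMod n), (0 : ZMod n)) ≠ 0 := by simp
  have h01 : ((0 : ZMod n), (1 : ZMod n)) ≠ 0 := by simp
  have r0 := torsHom_injective τ (hlab _ h10)
  have r1 := torsHom_injective τ (hlab _ h01)
  rcases hs with hs | hs
  · left
    rw [if_pos hs] at r0 r1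
    simp [Omega.vm] at r0 r1
    ext i j
    fin_cases i <;> fin_cases j <;> simp [r0.1, r0.2, r1.1, r1.2]
  · right
    rw [if_neg (by rw [hs]; norm_num)] at r0 r1
    simp [Omega.vm] at r0 r1
    ext i j
    fin_cases i <;> fin_cases j <;> simp [r0.1, r0.2, r1.1, r1.2]

namespace Setup

variable {n : ℕ} [NeZero n] {K : Type*} [Field K] [CharZero K] (E : Setup n K)

/-- A matrix of labels preserving the Tate coordinates at a good label is `±1`. -/
theorem eq_one_or_neg_one {M : Matrix (Fin 2) (Fin 2) (ZMod n)} (hM : IsUnit M)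
    {P : ZMod n × ZMod n} (hP : GoodPt P) (hB : E.rTB (vm P M) = E.rTB P)
    (hC : E.rTC (vm P M) = E.rTC P)
    (hXY : ∀ v, v ≠ 0 → E.rTX (vm P M) (vm v M) = E.rTX P v ∧
      E.rTY (vm P M) (vm v M) = E.rTY P v) :
    M = 1 ∨ M = -1 := by
  classical
  -- evaluate at a point `τ` where the coefficients `fA`, `fB` of the curve do not vanish
  obtain ⟨τ, hA, hB0⟩ := exists_fA_fB_ne
  have hQ := GoodPt.vm hP hM
  set φ := E.ev τ with hφ
  obtain ⟨-, -, gB, gC, gXY⟩ := E.map_gens φ hP
  obtain ⟨-, -, gB', gC', gXY'⟩ := E.map_gens φ hQ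
  obtain ⟨h3, h2⟩ := ev_rA3_rA2_ne hP τ
  obtain ⟨h3', h2'⟩ := ev_rA3_rA2_ne hQ τ
  have eB := congrArg φ hB
  have eC := congrArg φ hC
  rw [gB, gB', E.map_curve_ev] at eB
  rw [gC, gC', E.map_curve_ev] at eC
  -- the coordinates agree at every label, the missing label `0` included
  have hall : ∀ v, φ (E.rTX (vm P M) (vm v M)) = φ (E.rTX P v) ∧
      φ (E.rTY (vm P M) (vm v M)) = φ (E.rTY P v) := fun v => by
    rcases eq_or_ne v 0 with rfl | hv
    · obtain ⟨z1, z2⟩ := tate_zero_coords (b := fB τ) h3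
      obtain ⟨z1', z2'⟩ := tate_zero_coords (b := fB τ) h3'
      rw [show vm (0 : ZMod n × ZMod n) M = 0 by simp [Omega.vm], (gXY 0).1, (gXY 0).2,
        (gXY' 0).1, (gXY' 0).2, E.map_curve_ev]
      simp only [hφ, ev_apply, rX, rY, fX_zero, fY_zero, Pi.zero_apply]
      simp only [curveAt] at eB eC ⊢
      simp only [hφ, ev_apply, rX, rY] at eB eC
      rw [z1, z1', z2, z2', eB, eC]
      exact ⟨rfl, rfl⟩
    · exact ⟨congrArg φ (hXY v hv).1, congrArg φ (hXY v hv).2⟩
  simp only [hφ, ev_apply, rX, rY] at eB eC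
  set W := curveAt τ with hW
  set x := fX n P τ
  set y := fY n P τ
  set x' := fX n (vm P M) τ
  set y' := fY n (vm P M) τ
  set u := tateA3 W.toAffine x y / tateA2 W.toAffine x y with hu
  set u' := tateA3 W.toAffine x' y' / tateA2 W.toAffine x' y' with hu'
  set l := tateLam W.toAffine x y
  set l' := tateLam W.toAffine x' y'
  have hu0 : u ≠ 0 := div_ne_zero h3 h2
  have hu0' : u' ≠ 0 := div_ne_zero h3' h2'
  -- both normalisations differ by the scaling `μ` of the Weierstrass equation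
  set μ := u' / u with hμ
  have hμ0 : μ ≠ 0 := div_ne_zero hu0' hu0
  have hl : l' = μ * l := by
    have e : (2 * l) / u = (2 * l') / u' := by
      have := eC
      simp only [tateC, sub_right_inj] at this
      rw [hu, hu', div_div_eq_mul_div, div_div_eq_mul_div]
      have e1 : tateA1 W.toAffine x y = 2 * l := by simp [hW, curveAt, tateA1, l]
      have e1' : tateA1 W.toAffine x' y' = 2 * l' := by simp [hW, curveAt, tateA1, l']
      rw [← e1, ← e1']; exact this.symm
    rw [hμ]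
    field_simp at e ⊢
    linear_combination (-1 : ℂ) * e
  have key : ∀ v, fX n (vm v M) τ = μ ^ 2 * fX n v τ ∧ fY n (vm v M) τ = μ ^ 3 * fY n v τ := by
    have hrel : ∀ v, fX n (vm v M) τ - x' = μ ^ 2 * (fX n v τ - x) ∧
        fY n (vm v M) τ - y' - l' * (fX n (vm v M) τ - x')
          = μ ^ 3 * (fY n v τ - y - l * (fX n v τ - x)) := fun v => by
      obtain ⟨eX, eY⟩ := hall v
      rw [(gXY v).1, (gXY' _).1, E.map_curve_ev] at eX
      rw [(gXY v).2, (gXY' _).2, E.map_curve_ev] at eY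
      simp only [hφ, ev_apply, rX, rY, tateX, tateY] at eX eY
      change (fX n (vm v M) τ - x') / u' ^ 2 = (fX n v τ - x) / u ^ 2 at eX
      change (fY n (vm v M) τ - y' - l' * (fX n (vm v M) τ - x')) / u' ^ 3
        = (fY n v τ - y - l * (fX n v τ - x)) / u ^ 3 at eY
      rw [hμ]
      clear_value u u'
      field_simp at eX eY ⊢
      exact ⟨by linear_combination eX, by linear_combination eY⟩
    obtain ⟨z1, z2⟩ := hrel 0
    simp only [show vm (0 : ZMod n × ZMod n) M = 0 by simp [Omega.vm], fX_zero, fY_zero,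
      Pi.zero_apply] at z1 z2
    intro v
    obtain ⟨e1, e2⟩ := hrel v
    refine ⟨by linear_combination e1 - z1, ?_⟩
    linear_combination e2 - z2 + l' * (e1 - z1) + μ ^ 2 * fX n v τ * hl
  exact eq_one_or_neg_one_of_key hM hP hA hB0 hμ0 key

theorem ev_gen_neg {g : Gen n} (hg : g.Good) : E.gen (g.move (-1)) = E.gen g := by
  refine sub_eq_zero.mp (E.separates fun τ => ?_)
  have h := E.ev_gen_smul hg (-1 : SL(2, ℤ)) τ
  have e1 : (-1 : SL(2, ℤ)) • τ = τ := by
    rw [UpperHalfPlane.ext_iff, UpperHalfPlane.specialLinearGroup_apply]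
    simp
  have e2 : redMat n (-1 : SL(2, ℤ)) = -1 := by
    ext i j
    fin_cases i <;> fin_cases j <;> simp [redMat]
  rw [e1, e2] at h
  rw [map_sub, ← h, sub_self]

end Setup

end Fermat.Agent.Carayol.Omega
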