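import Fermat.Agent.Carayol.Omega.Ring

/-!
# Lifting matrices of determinant one from `ℤ/N` to `ℤ`
-/

set_option autoImplicit false

open scoped MatrixGroups

namespace Fermat.Agent.Carayol.Omega

/-- If no common prime of `c` and `d` divides `N`, some `d + t N` is prime to `c`. -/
theorem exists_shift_coprime {c d N : ℕ} (hc : c ≠ 0)
    (h : ∀ p : ℕ, p.Prime → p ∣ c → p ∣ d → ¬ p ∣ N) : ∃ t, (d + t * N).Coprime c := by
  classical
  refine ⟨∏ p ∈ c.primeFactors.filter (fun p => ¬ p ∣ d), p, ?_⟩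
  refine Nat.coprime_of_dvd fun p hp hpd hpc => ?_
  by_cases hd : p ∣ d
  · rcases (hp.dvd_mul).mp ((Nat.dvd_add_right hd).mp hpd) with h1 | h1
    · obtain ⟨r, hr, hpr⟩ := (hp.prime.dvd_finsetProd_iff id).mp h1
      obtain ⟨hr1, hr2⟩ := Finset.mem_filter.mp hr
      obtain rfl := (Nat.prime_dvd_prime_iff_eq hp (Nat.prime_of_mem_primeFactors hr1)).mp hpr
      exact hr2 hd
    · exact h p hp hpc hd h1
  · have h1 : p ∈ c.primeFactors.filter (fun r => ¬ r ∣ d) :=
      Finset.mem_filter.mpr ⟨Nat.mem_primeFactors.mpr ⟨hp, hpc, hc⟩, hd⟩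
    exact hd ((Nat.dvd_add_left ((Finset.dvd_prod_of_mem id h1).mul_right N)).mp hpd)

/-- Reduction modulo `N` is surjective on matrices of determinant one. -/
theorem exists_redMat_eq {N : ℕ} [NeZero N] {M : Matrix (Fin 2) (Fin 2) (ZMod N)}
    (h : M.det = 1) : ∃ γ : SL(2, ℤ), redMat N γ = M := by
  rw [Matrix.det_fin_two] at h
  set c := (M 1 0).val + N with hc
  set d₀ := (M 1 1).val
  have hNc : (c : ZMod N) = M 1 0 := by simp [hc]
  obtain ⟨t, ht⟩ := exists_shift_coprime (c := c) (d := d₀) (N := N)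
    (by have := NeZero.pos N; omega) fun p hp hpc hpd hpN => by
      have := Fact.mk hp
      have e := congrArg (ZMod.castHom hpN (ZMod p)) h
      rw [map_sub, map_mul, map_mul, map_one, ← hNc, show M 1 1 = ((d₀ : ℕ) : ZMod N) from
        (ZMod.natCast_zmod_val _).symm, map_natCast, map_natCast,
        (ZMod.natCast_eq_zero_iff c p).mpr hpc, (ZMod.natCast_eq_zero_iff d₀ p).mpr hpd] at e
      simp at e
  set d := d₀ + t * N with hd
  have hNd : (d : ZMod N) = M 1 1 := by simp [hd, d₀]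
  obtain ⟨x, y, hxy⟩ := Int.isCoprime_iff_nat_coprime.mpr
    (show Nat.Coprime (d : ℤ).natAbs (c : ℤ).natAbs by simpa using ht)
  obtain ⟨k, hk⟩ := ZMod.intCast_surjective
    ((M 0 0 - (x : ZMod N)) * (y : ZMod N) + (M 0 1 + (y : ZMod N)) * (x : ZMod N))
  refine ⟨⟨!![x + k * c, -y + k * d; (c : ℤ), (d : ℤ)], ?_⟩, ?_⟩
  · rw [Matrix.det_fin_two_of]
    linear_combination hxy
  · have e1 : (x : ZMod N) * M 1 1 + y * M 1 0 = 1 := by
      rw [← hNd, ← hNc]; exact_mod_cast congrArg (Int.cast : ℤ → ZMod N) hxy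
    ext i j
    fin_cases i <;> fin_cases j <;> simp [redMat, hk, hNc, hNd]
    · linear_combination M 0 0 * e1 - (x : ZMod N) * h
    · linear_combination M 0 1 * e1 + (y : ZMod N) * h

end Fermat.Agent.Carayol.Omega
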