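import Fermat.Agent.Carayol.Omega.Galois
import Fermat.Agent.Carayol.Omega.Faithful
import Fermat.Agent.Carayol.Omega.Lift
import Fermat.Agent.Carayol.Omega.Coords
import Fermat.Agent.Carayol.Fixing
import Fermat.Agent.Carayol.Datum

/-!
# The level structure carried by the field of level `q n`

The namespace `Omega` is that of the field `Ω` of level `q n`, constructed from functions on the
upper half plane; `tateLevel` shows that it is a `TateLevel`.
-/

set_option autoImplicit false

noncomputable section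

open UpperHalfPlane hiding I
open Complex Function Matrix

namespace Fermat.Agent.Carayol.Omega

open WeierstrassCurve.Affine (Point)

/-! ### The Chinese remainder theorem for labels -/

section Crt

variable {q n : ℕ} (h : q.Coprime n)

/-- The Chinese remainder isomorphism. -/
def crt : ZMod (q * n) ≃+* ZMod q × ZMod n := ZMod.chineseRemainder h

/-- The labels of `q`-torsion. -/
def qLabel : (Fin 2 → ZMod q) →+ ZMod (q * n) × ZMod (q * n) where
  toFun v := ((crt h).symm (v 0, 0), (crt h).symm (v 1, 0))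
  map_zero' := by simp [Prod.zero_eq_mk.symm]
  map_add' v w := by
    simp only [Pi.add_apply, Prod.mk_add_mk, ← map_add, add_zero]

theorem qLabel_injective : Injective (qLabel h) := fun v w e => by
  have e1 := congrArg (fun z => (crt h z).1) (congrArg Prod.fst e)
  have e2 := congrArg (fun z => (crt h z).1) (congrArg Prod.snd e)
  simp [qLabel] at e1 e2
  funext i
  fin_cases i
  · exact e1
  · exact e2

/-- The matrix congruent to `gᵀ` modulo `q` and to one modulo `n`. -/
def liftMat (g : Matrix (Fin 2) (Fin 2) (ZMod q)) : Matrix (Fin 2) (Fin 2) (ZMod (q * n)) :=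
  Matrix.of fun i j => (crt h).symm (g j i, (1 : Matrix (Fin 2) (Fin 2) (ZMod n)) i j)

/-- Under the Chinese remainder isomorphism the `(i, j)` entry of the lift of `g` is `g j i` modulo
`q` and that of the identity modulo `n`. -/
theorem crt_liftMat (g : Matrix (Fin 2) (Fin 2) (ZMod q)) (i j : Fin 2) :
    crt h (liftMat h g i j) = (g j i, (1 : Matrix (Fin 2) (Fin 2) (ZMod n)) i j) :=
  (crt h).apply_symm_apply _

theorem liftMat_one : liftMat h (1 : Matrix (Fin 2) (Fin 2) (ZMod q)) = 1 := by
  ext i j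
  apply (crt h).injective
  rw [crt_liftMat]
  fin_cases i <;> fin_cases j <;> simp

theorem liftMat_mul (g g' : Matrix (Fin 2) (Fin 2) (ZMod q)) :
    liftMat h (g * g') = liftMat h g' * liftMat h g := by
  ext i j
  apply (crt h).injective
  rw [crt_liftMat]
  simp only [Matrix.mul_apply, Fin.sum_univ_two, map_add, map_mul, crt_liftMat, Prod.mk_mul_mk,
    Prod.mk_add_mk, Prod.mk.injEq]
  refine ⟨by ring, ?_⟩
  have := congrFun (congrFun (one_mul (1 : Matrix (Fin 2) (Fin 2) (ZMod n))) i) j
  rw [Matrix.mul_apply, Fin.sum_univ_two] at this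
  exact this.symm

/-- Under the Chinese remainder isomorphism the determinant of the lift is `(det g, 1)`. -/
theorem crt_det_liftMat (g : Matrix (Fin 2) (Fin 2) (ZMod q)) :
    crt h (liftMat h g).det = (g.det, 1) := by
  rw [Matrix.det_fin_two, map_sub, map_mul, map_mul]
  simp only [crt_liftMat, Matrix.det_fin_two, Prod.mk_mul_mk, Prod.mk_sub_mk, Prod.mk.injEq]
  exact ⟨by ring, by simp⟩

theorem vm_qLabel (g : Matrix (Fin 2) (Fin 2) (ZMod q)) (v : Fin 2 → ZMod q) :
    vm (qLabel h v) (liftMat h g) = qLabel h (g *ᵥ v) := by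
  apply Prod.ext <;> apply (crt h).injective <;>
  simp [qLabel, vm, crt_liftMat] <;> ring

theorem crt_fst_of_nsmul {x : ZMod (q * n)} (hx : n • x = 0) : (crt h x).1 = 0 := by
  have e := congrArg Prod.fst (congrArg (crt h) hx)
  rw [map_nsmul, map_zero, Prod.smul_fst, nsmul_eq_mul, Prod.fst_zero] at e
  exact (IsUnit.mul_right_eq_zero ((ZMod.isUnit_iff_coprime n q).mpr h.symm)).mp e

theorem vm_of_nsmul (g : Matrix (Fin 2) (Fin 2) (ZMod q)) {v : ZMod (q * n) × ZMod (q * n)}
    (hv : n • v = 0) : vm v (liftMat h g) = v := by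
  have h1 := crt_fst_of_nsmul h (congrArg Prod.fst hv)
  have h2 := crt_fst_of_nsmul h (congrArg Prod.snd hv)
  apply Prod.ext <;> apply (crt h).injective <;>
  simp [vm, crt_liftMat, Prod.ext_iff, h1, h2]

theorem card_nsmul_eq_zero {q n : ℕ} (h : q.Coprime n) :
    Nat.card {v : ZMod (q * n) × ZMod (q * n) // n • v = 0} = n ^ 2 := by
  let e : {v : ZMod (q * n) × ZMod (q * n) // n • v = 0} ≃ ZMod n × ZMod n :=
    { toFun := fun v => ((crt h v.1.1).2, (crt h v.1.2).2)
      invFun := fun a => ⟨((crt h).symm (0, a.1), (crt h).symm (0, a.2)), by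
        apply Prod.ext <;> apply (crt h).injective <;> simp [Prod.ext_iff]⟩
      left_inv := fun v => by
        have h1 := crt_fst_of_nsmul h (congrArg Prod.fst v.2)
        have h2 := crt_fst_of_nsmul h (congrArg Prod.snd v.2)
        apply Subtype.ext
        apply Prod.ext <;> apply (crt h).injective <;> simp [Prod.ext_iff, h1, h2]
      right_inv := fun a => by simp }
  rw [Nat.card_congr e, Nat.card_prod, Nat.card_zmod, sq]

theorem exists_split (v : ZMod (q * n) × ZMod (q * n)) :
    ∃ a w, n • a = 0 ∧ v = a + qLabel h w := by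
  refine ⟨((crt h).symm (0, (crt h v.1).2), (crt h).symm (0, (crt h v.2).2)),
    ![(crt h v.1).1, (crt h v.2).1], ?_, ?_⟩
  · apply Prod.ext <;> apply (crt h).injective <;> simp [Prod.ext_iff]
  · apply Prod.ext <;> apply (crt h).injective <;> simp [qLabel, map_add]

end Crt

/-! ### The marked label -/

/-- The marked label of order `L`. -/
def markLabel {q n : ℕ} (h : q.Coprime n) (L : ℕ) : ZMod (q * n) × ZMod (q * n) :=
  (0, (crt h).symm (0, ((n / L : ℕ) : ZMod n)))

/-- The marked label has order exactly `L`. -/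
theorem nsmul_markLabel_eq_zero_iff {q n : ℕ} (h : q.Coprime n) (hn : n ≠ 0) {L : ℕ}
    (hL : L ∣ n) (i : ℕ) : i • markLabel h L = 0 ↔ L ∣ i := by
  obtain ⟨M, rfl⟩ := hL
  have hL0 : L ≠ 0 := left_ne_zero_of_mul hn
  have hM0 : M ≠ 0 := right_ne_zero_of_mul hn
  have e : i • markLabel h L
      = (0, (crt h).symm (0, ((i * M : ℕ) : ZMod (L * M)))) := by
    rw [markLabel, Nat.mul_div_cancel_left M (Nat.pos_of_ne_zero hL0), Prod.smul_mk, smul_zero,
      ← map_nsmul, Prod.smul_mk, smul_zero, nsmul_eq_mul, Nat.cast_mul]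
  rw [e, Prod.mk_eq_zero, map_eq_zero_iff _ (crt h).symm.injective, Prod.mk_eq_zero,
    ZMod.natCast_eq_zero_iff]
  exact ⟨fun h => (Nat.mul_dvd_mul_iff_right (Nat.pos_of_ne_zero hM0)).mp h.2.2,
    fun h => ⟨rfl, rfl, (Nat.mul_dvd_mul_iff_right (Nat.pos_of_ne_zero hM0)).mpr h⟩⟩

/-- A label of order `L ∈ {7, 9}` is a good point. -/
theorem goodPt_markLabel {q n L : ℕ} (hcop : q.Coprime n) (hn : n ≠ 0)
    (hL : L = 7 ∨ L = 9) (hLn : L ∣ n) : GoodPt (markLabel hcop L) :=
  have hord := nsmul_markLabel_eq_zero_iff hcop hn hLn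
  ⟨fun h => by have := Nat.le_of_dvd (by norm_num) ((hord 2).mp h); omega,
    fun h => by have := Nat.le_of_dvd (by norm_num) ((hord 3).mp h); omega⟩

/-! ### Automorphisms of the field of level `q n` -/

namespace Setup

attribute [local irreducible] Setup.toSer

variable {q n : ℕ} [NeZero (q * n)] {K : Type*} [Field K] [CharZero K] (E : Setup (q * n) K)
  (k : Type*) [Field k] [Algebra k K] (hcop : q.Coprime n)

/-- With enough automorphisms of the constants, every element of `GL₂(ℤ/q)` lifts to an
automorphism moving labels by its lift. -/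
theorem exists_moves_lift
    (hgal : ∀ d : (ZMod q)ˣ, ∃ σ : K ≃ₐ[k] K, σ (E.ζ ^ q) = E.ζ ^ q ∧
      σ (E.ζ ^ n) = (E.ζ ^ n) ^ (d : ZMod q).val)
    (g : GL (Fin 2) (ZMod q)) :
    ∃ e, E.Moves k e (liftMat hcop (g : Matrix (Fin 2) (Fin 2) (ZMod q))) := by
  have hn0 : n ≠ 0 := right_ne_zero_of_mul (NeZero.ne (q * n))
  have hq0 : q ≠ 0 := left_ne_zero_of_mul (NeZero.ne (q * n))
  have : NeZero q := ⟨hq0⟩
  obtain ⟨σ, hσq, hσn⟩ := hgal (Matrix.GeneralLinearGroup.det g)
  obtain ⟨c, e₁, hc, hσ, he₁, -⟩ := E.exists_moves_conj k σ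
  set M := liftMat hcop (g : Matrix (Fin 2) (Fin 2) (ZMod q)) with hM
  have hdet : (c : ZMod (q * n)) = M.det := by
    apply (crt hcop).injective
    rw [hM, crt_det_liftMat, map_natCast]
    refine Prod.ext ?_ ?_
    · rw [Prod.fst_natCast]
      have e : (E.ζ ^ n) ^ c = (E.ζ ^ n) ^ ((Matrix.GeneralLinearGroup.det g : (ZMod q)ˣ)
          : ZMod q).val := by
        rw [← hσn, map_pow, hσ, ← pow_mul, ← pow_mul, Nat.mul_comm n c]
      have hp : IsPrimitiveRoot (E.ζ ^ n) q :=
        E.isPrimitiveRoot.pow (NeZero.pos _) (mul_comm q n)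
      rw [pow_eq_pow_mod c hp.pow_eq_one] at e
      have := hp.pow_inj (Nat.mod_lt _ (NeZero.pos q)) (ZMod.val_lt _) e
      rw [← ZMod.natCast_mod, this, ZMod.natCast_zmod_val]
      rfl
    · rw [Prod.snd_natCast]
      have e : (E.ζ ^ q) ^ c = (E.ζ ^ q) ^ 1 := by
        rw [pow_one]; conv_rhs => rw [← hσq, map_pow, hσ]
        rw [← pow_mul, ← pow_mul, Nat.mul_comm q c]
      have hp : IsPrimitiveRoot (E.ζ ^ q) n := E.isPrimitiveRoot.pow (NeZero.pos _) rfl
      rw [pow_eq_pow_mod c hp.pow_eq_one, pow_eq_pow_mod 1 hp.pow_eq_one] at e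
      have : NeZero n := ⟨hn0⟩
      have := hp.pow_inj (Nat.mod_lt _ (NeZero.pos n)) (Nat.mod_lt _ (NeZero.pos n)) e
      rw [← ZMod.natCast_mod, this, ZMod.natCast_mod, Nat.cast_one]
  obtain ⟨u, hu⟩ := (ZMod.isUnit_iff_coprime c (q * n)).mpr hc
  obtain ⟨γ, hγ⟩ := exists_redMat_eq (M := diagMat (q * n) ↑u⁻¹ * M) (by
    rw [Matrix.det_mul, det_diagMat, ← hdet, ← hu, Units.inv_mul])
  obtain ⟨e₂, he₂, -⟩ := E.exists_moves_subst k γ
  refine ⟨e₂ * e₁, ?_⟩
  have := he₂.mul he₁
  rw [hγ, ← mul_assoc, show diagMat (q * n) (c : ZMod (q * n)) * diagMat (q * n) ↑u⁻¹ = 1 by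
    rw [← hu]; ext i j; fin_cases i <;> fin_cases j <;> simp [diagMat, Matrix.mul_apply],
    one_mul] at this
  exact this

variable [DecidableEq ℂ] [DecidableEq (E.field k)]

theorem isConj_tateHom {e : E.field k ≃ₐ[k] E.field k}
    {M : Matrix (Fin 2) (Fin 2) (ZMod (q * n))} (he : E.Moves k e M)
    {P : ZMod (q * n) × ZMod (q * n)} (hP : GoodPt P) {v : ZMod (q * n) × ZMod (q * n)}
    (hPM : vm P M = P) :
    IsConj (e : E.field k ≃+* E.field k) (E.tateHom k hP v) (E.tateHom k hP (vm v M)) := by
  obtain ⟨hM, -, hg⟩ := he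
  rcases eq_or_ne v 0 with rfl | hv
  · rw [show vm (0 : ZMod (q * n) × ZMod (q * n)) M = 0 by simp [Omega.vm], map_zero]
    rfl
  have hv' : vm v M ≠ 0 := fun h0 => hv (by
    obtain ⟨w, rfl⟩ := hM
    have h1 := congrArg (fun z => vm z (↑w⁻¹ : Matrix (Fin 2) (Fin 2) (ZMod (q * n)))) h0
    simp only [← vm_mul, Units.mul_inv, vm_one] at h1
    rw [h1]; simp [Omega.vm])
  obtain ⟨h, ev⟩ := E.tateHom_apply k hP hv
  obtain ⟨h', ev'⟩ := E.tateHom_apply k hP hv'
  rw [ev, ev']
  refine exists_some_eq (P := Point.some _ _ h') rfl ?_ ?_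
  · show _ = e _
    rw [hg (.tx P v) hP]
    exact Subtype.ext (congrArg E.genS (by simp [Gen.move, hPM]))
  · show _ = e _
    rw [hg (.ty P v) hP]
    exact Subtype.ext (congrArg E.genS (by simp [Gen.move, hPM]))

omit [DecidableEq ℂ] [DecidableEq ↥(E.field k)] in
theorem IsConj_fix {b c : E.field k} {σ : E.field k ≃+* E.field k}
    {Q : (Carayol.tateCurve b c).toAffine.Point} (h : ∀ a ∈ coordSet Q, σ a = a) :
    IsConj σ Q Q := by
  rcases Q with _ | ⟨x, y, hn⟩
  · rfl
  · exact exists_some_eq (P := Point.some x y hn) rfl (h x (Or.inl rfl)).symm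
      (h y (Or.inr rfl)).symm

/-- An automorphism fixing `j`, the marked curve and the coordinates is trivial. -/
theorem eq_one_of_fixes [IsGalois k K] {L : ℕ}
    (hP : GoodPt (markLabel hcop L)) (hn2 : n • markLabel hcop L = 0)
    {e : E.field k ≃ₐ[k] E.field k} (hj : e (E.fj k) = E.fj k)
    (hA : ∀ a, n • a = 0 → ∀ x ∈ coordSet (E.tateHom k hP a), e x = x)
    (hQ : ∀ w, ∀ x ∈ coordSet (E.tateHom k hP (qLabel hcop w)), e x = x) : e = 1 := by
  set R := markLabel hcop L
  set b := E.fTB k hP
  set c := E.fTC k hP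
  set σ : E.field k ≃+* E.field k := (e : E.field k ≃+* E.field k)
  -- `e` fixes `b` and `c`, which are coordinates of multiples of the marked point.
  obtain ⟨h2, e2⟩ := Carayol.two_nsmul_tatePt (c := c) (E.fTB_ne_zero k hP)
  obtain ⟨h3, e3⟩ := Carayol.three_nsmul_tatePt (c := c) (E.fTB_ne_zero k hP)
  rw [← E.tateHom_self k hP, ← map_nsmul] at e2 e3
  have hb : σ b = b := hA (2 • R) (by rw [smul_comm, hn2, smul_zero]) b
    (by rw [e2]; exact Or.inl rfl)
  have hc : σ c = c := hA (3 • R) (by rw [smul_comm, hn2, smul_zero]) c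
    (by rw [e3]; exact Or.inl rfl)
  -- So it fixes every point of the level structure.
  have hall : ∀ v, IsConj σ (E.tateHom k hP v) (E.tateHom k hP v) := fun v => by
    obtain ⟨a, w, ha, rfl⟩ := exists_split hcop v
    rw [map_add]
    exact (E.IsConj_fix k (hA a ha)).add hb hc (E.IsConj_fix k (hQ w))
  obtain ⟨M, hM⟩ := E.exists_moves_of_fj k hj
  obtain ⟨hMu, hz, hg⟩ := hM
  have hval : ∀ {g : Gen (q * n)} (hgood : g.Good), e (E.fgen k hgood) = E.fgen k hgood →
      E.gen (g.move M) = E.gen g := fun {g} hgood h => by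
    rw [hg g hgood] at h
    have h' : E.genS (g.move M) = E.genS g := congrArg Subtype.val h
    exact E.toSer_injective h'
  have hXY : ∀ v, v ≠ 0 → E.rTX (vm R M) (vm v M) = E.rTX R v ∧
      E.rTY (vm R M) (vm v M) = E.rTY R v := fun v hv => by
    obtain ⟨h, ev⟩ := E.tateHom_apply k hP hv
    have := hall v
    rw [ev] at this
    obtain ⟨h', e'⟩ := this
    obtain ⟨e1, e2⟩ := Point.some.inj e'
    exact ⟨hval (g := .tx R v) hP e1.symm, hval (g := .ty R v) hP e2.symm⟩
  -- Hence its matrix is `±1`, which acts trivially.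
  have hpm : M = 1 ∨ M = -1 := E.eq_one_or_neg_one hMu hP (hval (g := .tb R) hP hb)
    (hval (g := .tc R) hP hc) hXY
  refine Moves.ext (M := 1) ⟨isUnit_one, fun a => ?_, fun g hgood => ?_⟩ moves_one
  · rw [hz a]
    rcases hpm with rfl | rfl <;> simp [Matrix.det_neg]
  · rw [hg g hgood]
    refine Subtype.ext ?_
    show E.toSer (E.gen (g.move M)) = E.toSer (E.gen (g.move 1))
    rcases hpm with rfl | rfl
    · rfl
    · rw [E.ev_gen_neg hgood, Gen.move_one]

variable [IsGalois k K]

omit [IsGalois k K] [DecidableEq ℂ] [DecidableEq ↥(E.field k)] in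
/-- The function `j` is transcendental over the constants. -/
theorem fj_transcendental : Transcendental k (E.fj k) := by
  rw [transcendental_iff]
  intro p hp
  have h1 : evalJ (q * n) K (p.map (algebraMap k K)) = 0 := by
    have h2 := congrArg (E.field k).val hp
    rw [← Polynomial.aeval_algHom_apply, map_zero] at h2
    rw [← h2, Polynomial.aeval_def]
    suffices (evalJ (q * n) K).comp (Polynomial.mapRingHom (algebraMap k K))
        = Polynomial.eval₂RingHom (algebraMap k (LaurentSeries K))
            ((E.field k).val (E.fj k)) from RingHom.congr_fun this p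
    refine Polynomial.ringHom_ext (fun a => ?_) ?_
    · simp [evalJ_C, algebraMap_laurent_comp]
    · simp [evalJ_X, E.coe_fj]
  rw [map_eq_zero_iff _ (evalJ_injective (q * n) K)] at h1
  exact (Polynomial.map_eq_zero_iff (algebraMap k K).injective).mp h1

omit [DecidableEq ℂ] [DecidableEq ↥(E.field k)] [IsGalois k K] in
/-- `q` is not zero in the field of level `q n`. -/
private theorem natCast_ne_zero_field (hq : q ≠ 0) : (q : E.field k) ≠ 0 := fun h0 => by
  have hser : ((q : ℕ) : LaurentSeries K) = 0 := congrArg Subtype.val h0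
  rw [← map_natCast (HahnSeries.C : K →+* LaurentSeries K),
    map_eq_zero_iff _ (RingHom.injective _), Nat.cast_eq_zero] at hser
  exact hq hser

omit [IsGalois k K] in
/-- The marked point has the order of the marked label. -/
private theorem nsmul_tatePt_eq_zero_iff (hn : n ≠ 0) {L : ℕ} (hLn : L ∣ n)
    (hP : GoodPt (markLabel hcop L)) (i : ℕ) :
    i • Carayol.tatePt (c := E.fTC k hP) (E.fTB_ne_zero k hP) = 0 ↔ L ∣ i := by
  rw [← E.tateHom_self k hP, ← map_nsmul, map_eq_zero_iff _ (E.tateHom_injective k hP)]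
  exact nsmul_markLabel_eq_zero_iff hcop hn hLn i

/-- `j` and the coordinates of the labelled torsion points generate the field of level `q n`. -/
private theorem adjoin_coords_eq_top {L : ℕ}
    (hP : GoodPt (markLabel hcop L)) (hn2 : n • markLabel hcop L = 0) :
    IntermediateField.adjoin k (({E.fj k} : Set (E.field k)) ∪ ⋃ P ∈
      {P : (Carayol.tateCurve (E.fTB k hP) (E.fTC k hP)).toAffine.Point |
        n • P = 0 ∨ P ∈ Set.range ((E.tateHom k hP).comp (qLabel hcop))}, coordSet P) = ⊤ := by
  set S : Set (E.field k) := ({E.fj k} : Set (E.field k)) ∪ ⋃ P ∈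
    {P : (Carayol.tateCurve (E.fTB k hP) (E.fTC k hP)).toAffine.Point |
      n • P = 0 ∨ P ∈ Set.range ((E.tateHom k hP).comp (qLabel hcop))}, coordSet P
  set F := IntermediateField.adjoin k S with hF
  have hle : E.base k ≤ F :=
    IntermediateField.adjoin.mono k _ _ Set.subset_union_left
  have := E.finiteDimensional_base k
  have := E.isGalois_base k
  -- an automorphism fixing all of `S` is trivial, so `S` generates
  have hbot : (IntermediateField.extendScalars hle).fixingSubgroup = ⊥ := by
    refine eq_bot_iff.mpr fun e he => ?_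
    rw [IntermediateField.mem_fixingSubgroup_iff] at he
    have hfixS : ∀ x ∈ S, e x = x := fun x hx =>
      he x (IntermediateField.mem_extendScalars hle |>.mpr
        (IntermediateField.subset_adjoin k S hx))
    have := E.eq_one_of_fixes k hcop hP hn2 (e := e.restrictScalars k)
      (hfixS _ (Or.inl rfl))
      (fun a ha x hx => hfixS x (Or.inr (Set.mem_biUnion
        (show E.tateHom k hP a ∈ _ from Or.inl (by rw [← map_nsmul, ha, map_zero])) hx)))
      (fun w x hx => hfixS x (Or.inr (Set.mem_biUnion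
        (show E.tateHom k hP (qLabel hcop w) ∈ _ from Or.inr ⟨w, rfl⟩) hx)))
    rw [Subgroup.mem_bot]
    exact AlgEquiv.ext fun x => AlgEquiv.congr_fun this x
  have htop : IntermediateField.extendScalars hle = ⊤ := by
    rw [← IsGalois.fixedField_fixingSubgroup (IntermediateField.extendScalars hle), hbot,
      IntermediateField.fixedField_bot]
  refine eq_top_iff.mpr fun x _ => (IntermediateField.mem_extendScalars hle).mp ?_
  rw [htop]
  trivial

omit [IsGalois k K] in
/-- A lift of `g` fixes the coordinates of the `n`-torsion. -/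
private theorem fixes_coords_of_moves (hn0 : n ≠ 0) {L : ℕ} (hP : GoodPt (markLabel hcop L))
    (hn2 : n • markLabel hcop L = 0) {g : Matrix (Fin 2) (Fin 2) (ZMod q)}
    {e : E.field k ≃ₐ[k] E.field k} (he : E.Moves k e (liftMat hcop g))
    {Q : (Carayol.tateCurve (E.fTB k hP) (E.fTC k hP)).toAffine.Point} (hQ : n • Q = 0)
    {a : E.field k} (ha : a ∈ coordSet Q) : e a = a := by
  obtain ⟨v, hv, rfl⟩ := E.exists_label k hP hn0 (card_nsmul_eq_zero hcop) hQ
  have hconj := E.isConj_tateHom k he hP (v := v) (vm_of_nsmul hcop _ hn2)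
  rw [vm_of_nsmul hcop _ hv] at hconj
  rcases eq_or_ne v 0 with rfl | hv0
  · rw [map_zero] at ha; exact ha.elim
  obtain ⟨h, ev⟩ := E.tateHom_apply k hP hv0
  rw [ev] at hconj ha
  obtain ⟨h', e'⟩ := hconj
  obtain ⟨e1, e2⟩ := Point.some.inj e'
  rcases ha with rfl | rfl
  · exact e1.symm
  · exact e2.symm

/-! ### The datum -/

/-- The level datum of the field of level `q n`. -/
def tateLevel (hq : q.Prime) (L : ℕ) (hL : L = 7 ∨ L = 9) (hLn : L ∣ n)
    (hgal : ∀ d : (ZMod q)ˣ, ∃ σ : K ≃ₐ[k] K, σ (E.ζ ^ q) = E.ζ ^ q ∧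
      σ (E.ζ ^ n) = (E.ζ ^ n) ^ (d : ZMod q).val) :
    TateLevel k (E.field k) :=
  have hn0 : n ≠ 0 := right_ne_zero_of_mul (NeZero.ne (q * n))
  have hP : GoodPt (markLabel hcop L) := goodPt_markLabel hcop hn0 hL hLn
  have hn2 : n • markLabel hcop L = 0 :=
    (nsmul_markLabel_eq_zero_iff hcop hn0 hLn n).mpr hLn
  have hordR := E.nsmul_tatePt_eq_zero_iff k hcop hn0 hLn hP
  -- the torsion frame: the marked point of order `L` and the labels of `q`-torsion
  let fr : TorsFrame (E.fTB k hP) (E.fTC k hP) :=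
    { hb := E.fTB_ne_zero k hP
      n := n
      q := q
      hn0 := hn0
      hq := hq
      hnq := hcop.symm
      hchar := E.natCast_ne_zero_field k hq.ne_zero
      qTors := (E.tateHom k hP).comp (qLabel hcop)
      qTors_injective := (E.tateHom_injective k hP).comp (qLabel_injective hcop)
      nR := (hordR n).mpr hLn
      smulR := fun i hi h => by
        have := (hordR i).mp h
        simp only [Finset.mem_insert, Finset.mem_singleton] at hi
        rcases hL with rfl | rfl <;> rcases hi with rfl | rfl | rfl | rfl | rfl | rfl | rfl <;>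
          norm_num at this }
  -- the action lifts `g` to the automorphism moving labels by `liftMat g`
  let act : GL (Fin 2) (ZMod q) →* (E.field k ≃ₐ[k] E.field k) :=
    { toFun := fun g => (E.exists_moves_lift k hcop hgal g).choose
      map_one' := by
        have h1 := (E.exists_moves_lift k hcop hgal 1).choose_spec
        exact h1.ext (by rw [Units.val_one, liftMat_one]; exact moves_one)
      map_mul' := fun g g' => by
        have h1 := (E.exists_moves_lift k hcop hgal (g * g')).choose_spec
        exact h1.ext (by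
          rw [Units.val_mul, liftMat_mul]
          exact (E.exists_moves_lift k hcop hgal g).choose_spec.mul
            (E.exists_moves_lift k hcop hgal g').choose_spec) }
  have hact : ∀ g : GL (Fin 2) (ZMod q),
      E.Moves k (act g) (liftMat hcop (g : Matrix (Fin 2) (Fin 2) (ZMod q))) :=
    fun g => (E.exists_moves_lift k hcop hgal g).choose_spec
  have hfix : ∀ g : GL (Fin 2) (ZMod q),
      vm (markLabel hcop L) (liftMat hcop (g : Matrix (Fin 2) (Fin 2) (ZMod q))) =
          markLabel hcop L :=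
    fun g => vm_of_nsmul hcop _ hn2
  { j := E.fj k
    j_transcendental := E.fj_transcendental k
    finite := E.finiteDimensional_base k
    normal := (E.isGalois_base k).to_normal
    b := E.fTB k hP
    c := E.fTC k hP
    frame := fr
    orderR := by
      have : addOrderOf (Carayol.tatePt (c := E.fTC k hP) (E.fTB_ne_zero k hP)) = L :=
        Nat.dvd_antisymm (addOrderOf_dvd_iff_nsmul_eq_zero.mpr ((hordR L).mpr dvd_rfl))
          ((hordR _).mp (addOrderOf_nsmul_eq_zero _))
      rw [this]
      rcases hL with rfl | rfl <;> simp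
    Δ_ne_zero := E.tateΔ_ne_zero k hP
    j_eq := E.j_relation k hP
    generate := E.adjoin_coords_eq_top k hcop hP hn2
    act := act
    act_j := fun g => (hact g).apply_fj
    act_fix := fun g _ hQ _ ha => E.fixes_coords_of_moves k hcop hn0 hP hn2 (hact g) hQ ha
    act_qTors := fun g v x y h hv => by
      have hconj := E.isConj_tateHom k (hact g) hP (v := qLabel hcop v) (hfix g)
      rw [vm_qLabel, show E.tateHom k hP (qLabel hcop v) = Point.some x y h from hv] at hconj
      exact hconj }

end Setup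

end Fermat.Agent.Carayol.Omega
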