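import Fermat.Agent.Carayol.Omega.Galois

/-!
# The degree of the field of level `n` over a subfield containing `j` is bounded
-/

set_option autoImplicit false

noncomputable section

namespace Fermat.Agent.Carayol.Omega

section Abstract

variable {k Ω : Type*} [Field k] [Field Ω] [Algebra k Ω]

theorem finiteDimensional_of_ge {B S : IntermediateField k Ω} (hle : B ≤ S)
    [FiniteDimensional B Ω] :
    FiniteDimensional S Ω ∧ Module.finrank S Ω ≤ Module.finrank B Ω := by
  let S' : IntermediateField B Ω := IntermediateField.extendScalars hle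
  have hfin : FiniteDimensional S' Ω := FiniteDimensional.right B S' Ω
  have hfin' : FiniteDimensional B S' := FiniteDimensional.left B S' Ω
  refine ⟨hfin, ?_⟩
  have h1 : Module.finrank S' Ω ≤ Module.finrank B Ω := by
    rw [← Module.finrank_mul_finrank B S' Ω]
    exact Nat.le_mul_of_pos_left _ Module.finrank_pos
  exact h1

theorem exists_pow_mem_of_finrank_le {S : IntermediateField k Ω} [FiniteDimensional S Ω] {b : ℕ}
    (hb : Module.finrank S Ω ≤ b) {x : Ω} (hx : x ∈ S) {c : k} (hc : c ≠ 0) {m : ℕ} {h : Ω}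
    (hh : h ≠ 0) (e : x = algebraMap k Ω c * h ^ m) :
    ∃ (c' : k) (h' : Ω), c' ≠ 0 ∧ h' ≠ 0 ∧ h' ∈ S ∧
      x ^ b.factorial = algebraMap k Ω c' * h' ^ m := by
  obtain ⟨t, ht⟩ := Nat.dvd_factorial Module.finrank_pos hb
  have h1 := congrArg (Algebra.norm S) e
  rw [show x = algebraMap S Ω ⟨x, hx⟩ from rfl, Algebra.norm_algebraMap, map_mul, map_pow,
    show algebraMap k Ω c = algebraMap S Ω (algebraMap k S c) from rfl,
    Algebra.norm_algebraMap, ← map_pow] at h1
  refine ⟨c ^ (Module.finrank S Ω * t), ((Algebra.norm S h : S) : Ω) ^ t, pow_ne_zero _ hc,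
    pow_ne_zero _ fun e0 => Algebra.norm_ne_zero_iff.mpr hh (Subtype.ext e0),
    pow_mem (Algebra.norm S h).2 t, ?_⟩
  have h2 := congrArg (fun z : S => (z : Ω) ^ t) h1
  simp only [IntermediateField.coe_pow, IntermediateField.coe_mul] at h2
  rw [show ((algebraMap k S (c ^ Module.finrank S Ω) : S) : Ω) =
    algebraMap k Ω (c ^ Module.finrank S Ω) from rfl, mul_pow, ← map_pow] at h2
  rw [ht, pow_mul, pow_mul, ← pow_mul _ t m, mul_comm t m, pow_mul]
  exact h2

end Abstract

namespace Setup

variable {n : ℕ} [NeZero n] {K : Type*} [Field K] [CharZero K] (E : Setup n K)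
  (k : Type*) [Field k] [Algebra k K] [IsGalois k K]

/-- The degree over `k(j)` is at most `n ^ 4`. -/
theorem finrank_base_le : Module.finrank (E.base k) (E.field k) ≤ n ^ 4 := by
  classical
  let : Fintype (E.movesGroup k) := Fintype.ofFinite _
  have h2 : Module.finrank (E.base k) (E.field k) ≤ Fintype.card (E.movesGroup k) := by
    rw [← E.fixedField_movesGroup k]
    exact FixedPoints.finrank_le_card (E.movesGroup k) (E.field k)
  refine h2.trans ?_
  have h3 : Fintype.card (E.movesGroup k) ≤ Fintype.card (Matrix (Fin 2) (Fin 2) (ZMod n)) :=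
    Fintype.card_le_of_injective (fun e => e.2.choose) fun e f h => Subtype.ext <| by
      have he := e.2.choose_spec
      have hf := f.2.choose_spec
      rw [show e.2.choose = f.2.choose from h] at he
      exact he.ext hf
  refine h3.trans (le_of_eq ?_)
  rw [← Nat.card_eq_fintype_card, show Nat.card (Matrix (Fin 2) (Fin 2) (ZMod n)) =
    Nat.card (Fin 2 → Fin 2 → ZMod n) from rfl, Nat.card_fun, Nat.card_fun, Nat.card_zmod,
    Nat.card_eq_fintype_card, Fintype.card_fin, ← pow_mul]

/-- An `m`-th power up to a constant descends to a subfield with a bounded loss. -/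
theorem exists_pow_eq_of_subfield {S : IntermediateField k (E.field k)} (hS : E.fj k ∈ S)
    {x : E.field k} (hx : x ∈ S) {c : k} (hc : c ≠ 0) {m : ℕ} {h : E.field k} (hh : h ≠ 0)
    (e : x = algebraMap k (E.field k) c * h ^ m) :
    ∃ (c' : k) (h' : E.field k), c' ≠ 0 ∧ h' ≠ 0 ∧ h' ∈ S ∧
      x ^ Nat.factorial (n ^ 4) = algebraMap k (E.field k) c' * h' ^ m := by
  have hle : E.base k ≤ S := by
    rw [base, IntermediateField.adjoin_le_iff, Set.singleton_subset_iff]; exact hS
  have := E.finiteDimensional_base k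
  obtain ⟨hfin, hrk⟩ := finiteDimensional_of_ge hle
  exact exists_pow_mem_of_finrank_le (hrk.trans (E.finrank_base_le k)) hx hc hh e

end Setup

end Fermat.Agent.Carayol.Omega

end
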