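import Fermat.Agent.Carayol.Omega.Maps
import Fermat.Agent.ModFun.HeckeRoots

/-!
# The norms along the degeneracy maps as products over the unipotent groups

`x ↦ x (τ/q)` embeds the field of level `q² M` into the field of level `q n`; the norm to level
`q M` along either degeneracy map is the product of the translates under a unipotent group.
-/

set_option autoImplicit false

noncomputable section

open Function Matrix AlgebraicCurve ModularCurve
open scoped MatrixGroups

namespace Fermat.Agent.Carayol.Omega

open Fermat.Agent.ModFun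

local notation "QBar" => AlgebraicClosure ℚ

namespace Setup

attribute [local irreducible] Setup.toSer Setup.pull Setup.toFrac

section Generic

variable {n : ℕ} [NeZero n] {K : Type*} [Field K] [CharZero K] (E : Setup n K)
  (k k' : Type*) [Field k] [Algebra k K] [Field k'] [Algebra k' K]

theorem toFrac_congr {x : E.field k} {x' : E.field k'}
    (h : (x : LaurentSeries K) = (x' : LaurentSeries K)) : E.toFrac k x = E.toFrac k' x' :=
  E.fracSer.injective (by rw [fracSer_toFrac, fracSer_toFrac, h])

theorem substHom_congr (γ : SL(2, ℤ)) {x : E.field k} {x' : E.field k'}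
    (h : (x : LaurentSeries K) = (x' : LaurentSeries K)) :
    E.substHom k γ x = E.substHom k' γ x' :=
  congrArg (E.fracPull γ) (E.toFrac_congr k k' h)

/-- An automorphism moving labels by the reduction of `γ` is substitution of `γ`. -/
theorem coe_moves_eq (γ : SL(2, ℤ)) {e : E.field k ≃ₐ[k] E.field k}
    (he : E.Moves k e (redMat n γ)) {x : E.field k} {x' : E.field k'}
    (h : (x : LaurentSeries K) = (x' : LaurentSeries K)) :
    ((e x : E.field k) : LaurentSeries K) = E.substHom k' γ x' := by
  obtain ⟨e', he', hval⟩ := E.exists_moves_subst k γ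
  obtain rfl := he'.ext he
  rw [hval, E.substHom_congr k k' γ h]

variable {k}

/-- If `j (d τ)`, rescaled by `m`, lies in the field for `d ∣ N`, so does the field they generate.
-/
theorem qExpand_mem_field {m N : ℕ} [NeZero m]
    (hgen : ∀ (d : ℕ) [NeZero d], d ∣ N → qExpand K m (qExpand K d (jqModC K)) ∈ E.field k)
    {x : LaurentSeries K} (hx : x ∈ IntermediateField.adjoin k (divisorExpansionsC K N)) :
    qExpand K m x ∈ E.field k := by
  induction hx using IntermediateField.adjoin_induction with
  | mem z hz =>
    obtain ⟨d, hd, hdN, rfl⟩ := hz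
    exact hgen d hdN
  | algebraMap c =>
    rw [algebraMap_laurent_comp, HahnSeries.C_apply, qExpand_single, mul_zero]
    have := (E.field k).algebraMap_mem c
    rwa [algebraMap_laurent_comp, HahnSeries.C_apply] at this
  | add a b _ _ ha hb => rw [map_add]; exact add_mem ha hb
  | inv a _ ha => rw [map_inv₀]; exact inv_mem ha
  | mul a b _ _ ha hb => rw [map_mul]; exact mul_mem ha hb

/-- An automorphism fixing the rescaled `j (d τ)`, `d ∣ N`, fixes the field they generate. -/
theorem apply_qExpand_eq {m N : ℕ} [NeZero m]
    (hgen : ∀ (d : ℕ) [NeZero d], d ∣ N → qExpand K m (qExpand K d (jqModC K)) ∈ E.field k)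
    {e : E.field k ≃ₐ[k] E.field k}
    (hfix : ∀ (d : ℕ) [NeZero d], d ∣ N → ∀ y : E.field k,
      (y : LaurentSeries K) = qExpand K m (qExpand K d (jqModC K)) → e y = y)
    {x : LaurentSeries K} (hx : x ∈ IntermediateField.adjoin k (divisorExpansionsC K N))
    {y : E.field k} (hy : (y : LaurentSeries K) = qExpand K m x) : e y = y := by
  induction hx using IntermediateField.adjoin_induction generalizing y with
  | mem z hz =>
    obtain ⟨d, hd, hdN, rfl⟩ := hz
    exact hfix d hdN y hy
  | algebraMap c =>
    rw [show y = algebraMap k (E.field k) c from Subtype.ext (by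
      rw [hy, algebraMap_laurent_comp, HahnSeries.C_apply, qExpand_single, mul_zero]
      exact (algebraMap_laurent_comp (K := K) c).symm)]
    exact e.commutes c
  | add a b ha hb iha ihb =>
    have h1 := iha (y := ⟨_, E.qExpand_mem_field hgen ha⟩) rfl
    have h2 := ihb (y := ⟨_, E.qExpand_mem_field hgen hb⟩) rfl
    rw [show y = ⟨_, E.qExpand_mem_field hgen ha⟩ + ⟨_, E.qExpand_mem_field hgen hb⟩ from
      Subtype.ext (by rw [hy, map_add]; rfl), map_add, h1, h2]
  | inv a ha iha =>
    have h1 := iha (y := ⟨_, E.qExpand_mem_field hgen ha⟩) rfl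
    rw [show y = (⟨_, E.qExpand_mem_field hgen ha⟩ : E.field k)⁻¹ from
      Subtype.ext (by rw [hy, map_inv₀]; rfl), map_inv₀, h1]
  | mul a b ha hb iha ihb =>
    have h1 := iha (y := ⟨_, E.qExpand_mem_field hgen ha⟩) rfl
    have h2 := ihb (y := ⟨_, E.qExpand_mem_field hgen hb⟩) rfl
    rw [show y = ⟨_, E.qExpand_mem_field hgen ha⟩ * ⟨_, E.qExpand_mem_field hgen hb⟩ from
      Subtype.ext (by rw [hy, map_mul]; rfl), map_mul, h1, h2]

end Generic

section Norm

variable {q n : ℕ} [NeZero (q * n)] [NeZero q] [NeZero n] (E : Setup (q * n) QBar)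
  (hcop : q.Coprime n)

omit [NeZero q] [NeZero n] in
theorem exists_redMat_liftMat {u : GL (Fin 2) (ZMod q)}
    (hu : (u : Matrix (Fin 2) (Fin 2) (ZMod q)).det = 1) :
    ∃ γ : SL(2, ℤ), redMat (q * n) γ = liftMat hcop (u : Matrix (Fin 2) (Fin 2) (ZMod q)) :=
  exists_redMat_eq ((crt hcop).injective (by rw [crt_det_liftMat, hu, map_one]; rfl))

/-- The norm is the product of substitutions, given `q` of them with distinct values. -/
theorem qExpand_norm_eq_prod {N N' : ℕ} [NeZero N] [NeZero N']
    (φ : modularFunctionFieldBar N →ₐ[QBar] modularFunctionFieldBar N')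
    (hdeg : finrankAlong QBar φ = q)
    (hmem : ∀ x : modularFunctionFieldBar N', qExpand QBar n (x : LaurentSeries QBar) ∈
      E.field QBar)
    (γ : ZMod q → SL(2, ℤ))
    (hfix : ∀ a (x : modularFunctionFieldBar N),
      E.substHom QBar (γ a) ⟨_, hmem (φ x)⟩ = qExpand QBar n (φ x : LaurentSeries QBar))
    (x₀ : modularFunctionFieldBar N')
    (hinj : Injective fun a => E.substHom QBar (γ a) ⟨_, hmem x₀⟩)
    (f : modularFunctionFieldBar N') :
    ∏ a, E.substHom QBar (γ a) ⟨_, hmem f⟩ = qExpand QBar n
      ((φ (letI := algebraAlong φ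
        Algebra.norm (modularFunctionFieldBar N) f) : modularFunctionFieldBar N') :
          LaurentSeries QBar) := by
  let := algebraAlong φ
  have : FiniteDimensional (modularFunctionFieldBar N) (modularFunctionFieldBar N') :=
    FF.finiteAlong φ
  let algM : Algebra (modularFunctionFieldBar N) (LaurentSeries QBar) :=
    (((qExpand QBar n).comp (modularFunctionFieldBar N').val.toRingHom).comp φ.toRingHom).toAlgebra
  let toE : modularFunctionFieldBar N' →+* E.field QBar :=
    ((qExpand QBar n).comp (modularFunctionFieldBar N').val.toRingHom).codRestrict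
      (E.field QBar).toSubfield hmem
  let ψ : ZMod q → (modularFunctionFieldBar N' →ₐ[modularFunctionFieldBar N] LaurentSeries QBar) :=
    fun a => { (E.substHom QBar (γ a)).toRingHom.comp toE with commutes' := fun x => hfix a x }
  have hψ : Injective ψ := fun a b h => hinj (congrArg (fun e => e x₀) h :)
  have hcard : Fintype.card (ZMod q) =
      Module.finrank (modularFunctionFieldBar N) (modularFunctionFieldBar N') := by
    rw [ZMod.card]; exact hdeg.symm
  have h := congrArg (Polynomial.coeff · 0) (charpoly_map_eq_prod_of_card ψ hψ hcard f)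
  simp only [Polynomial.coeff_zero_eq_eval_zero, Polynomial.eval_prod,
    Polynomial.eval_sub, Polynomial.eval_X, Polynomial.eval_C, zero_sub] at h
  rw [Finset.prod_neg, Finset.card_univ, ← Polynomial.coeff_zero_eq_eval_zero,
    Polynomial.coeff_map] at h
  show ∏ a, ψ a f = algebraMap (modularFunctionFieldBar N) (LaurentSeries QBar)
    (Algebra.norm (modularFunctionFieldBar N) f)
  rw [Algebra.norm_apply, LinearMap.det_eq_sign_charpoly_coeff, map_mul, map_pow, map_neg, map_one,
    h,
    ← hcard, ← mul_assoc, ← pow_add, Even.neg_one_pow ⟨_, rfl⟩, one_mul]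

end Norm

end Setup

end Fermat.Agent.Carayol.Omega

end
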