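import Mathlib.AlgebraicGeometry.EllipticCurve.Affine.Point
import Mathlib.AlgebraicGeometry.EllipticCurve.VariableChange
import Mathlib.Tactic.LinearCombination

/-!
# Points under a change of Weierstrass coordinates
-/

set_option autoImplicit false

namespace Fermat.Agent.Carayol.Omega

open WeierstrassCurve WeierstrassCurve.Affine

variable {F : Type*} [Field F] (C : VariableChange F) (W : WeierstrassCurve F)

/-- Old abscissa in terms of the new one. -/
def oldX (x : F) : F := (C.u : F) ^ 2 * x + C.r

/-- Old ordinate in terms of the new coordinates. -/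
def oldY (x y : F) : F := (C.u : F) ^ 3 * y + (C.u : F) ^ 2 * C.s * x + C.t

/-- New abscissa in terms of the old one. -/
def newX (x : F) : F := (x - C.r) / (C.u : F) ^ 2

/-- New ordinate in terms of the old coordinates. -/
def newY (x y : F) : F := (y - C.t - C.s * (x - C.r)) / (C.u : F) ^ 3

theorem newX_oldX (x : F) : newX C (oldX C x) = x := by
  simp only [newX, oldX, add_sub_cancel_right]
  field_simp

theorem newY_oldY (x y : F) : newY C (oldX C x) (oldY C x y) = y := by
  simp only [newY, oldX, oldY]
  field_simp
  ring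

theorem oldX_newX (x : F) : oldX C (newX C x) = x := by
  simp only [newX, oldX]
  field_simp
  ring

theorem oldY_newY (x y : F) : oldY C (newX C x) (newY C x y) = y := by
  simp only [newX, newY, oldY]
  field_simp
  ring

theorem oldX_injective : Function.Injective (oldX C) :=
  Function.LeftInverse.injective (newX_oldX C)

theorem equation_old_iff (x y : F) :
    W.toAffine.Equation (oldX C x) (oldY C x y) ↔ (C • W).toAffine.Equation x y := by
  have hu := C.u.ne_zero
  rw [equation_iff', equation_iff', variableChange_a₁, variableChange_a₂, variableChange_a₃,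
    variableChange_a₄, variableChange_a₆, Units.val_inv_eq_inv_val]
  constructor <;> intro h
  · field_simp
    simp only [oldX, oldY] at h
    linear_combination h
  · field_simp at h
    simp only [oldX, oldY]
    linear_combination h

variable [W.IsElliptic]

theorem nonsingular_old {x y : F} (h : (C • W).toAffine.Nonsingular x y) :
    W.toAffine.Nonsingular (oldX C x) (oldY C x y) :=
  (equation_iff_nonsingular (W := W.toAffine)).mp ((equation_old_iff C W x y).mpr h.1)

theorem nonsingular_new {x y : F} (h : W.toAffine.Nonsingular x y) :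
    (C • W).toAffine.Nonsingular (newX C x) (newY C x y) :=
  (equation_iff_nonsingular (W := (C • W).toAffine)).mp ((equation_old_iff C W _ _).mp
    (by rw [oldX_newX, oldY_newY]; exact h.1))

/-- The map on points induced by a change of coordinates. -/
def oldPointFun : (C • W).toAffine.Point → W.toAffine.Point
  | .zero => .zero
  | .some _ _ h => .some _ _ (nonsingular_old C W h)

omit [W.IsElliptic] in
theorem negY_old (x y : F) :
    W.toAffine.negY (oldX C x) (oldY C x y) = oldY C x ((C • W).toAffine.negY x y) := by
  have hu := C.u.ne_zero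
  simp only [Affine.negY, oldX, oldY, variableChange_a₁, variableChange_a₃,
    Units.val_inv_eq_inv_val]
  field_simp
  ring

variable [DecidableEq F]

theorem oldPointFun_add (P Q : (C • W).toAffine.Point) :
    oldPointFun C W (P + Q) = oldPointFun C W P + oldPointFun C W Q := by
  have hu := C.u.ne_zero
  rcases P with _ | ⟨x₁, y₁, h₁⟩
  · rw [← Point.zero_def, zero_add, show oldPointFun C W 0 = 0 from rfl, zero_add]
  rcases Q with _ | ⟨x₂, y₂, h₂⟩
  · rw [← Point.zero_def, add_zero, show oldPointFun C W 0 = 0 from rfl, add_zero]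
  show _ = Point.some _ _ (nonsingular_old C W h₁) + Point.some _ _ (nonsingular_old C W h₂)
  -- One sum is zero exactly when the other is.
  by_cases hcase : x₁ = x₂ ∧ y₁ = (C • W).toAffine.negY x₂ y₂
  · obtain ⟨hx, hy⟩ := hcase
    rw [Point.add_of_Y_eq hx hy, Point.add_of_Y_eq (congrArg (oldX C) hx)
      (by rw [negY_old, hx, hy])]
    rfl
  have hcase' : ¬(oldX C x₁ = oldX C x₂ ∧
      oldY C x₁ y₁ = W.toAffine.negY (oldX C x₂) (oldY C x₂ y₂)) := by
    rintro ⟨hx, hy⟩
    have hx' := oldX_injective C hx
    refine hcase ⟨hx', ?_⟩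
    have h := congrArg (newY C (oldX C x₁)) hy
    rwa [negY_old, hx', newY_oldY, newY_oldY] at h
  rw [Point.add_some hcase, Point.add_some hcase']
  set L := (C • W).toAffine.slope x₁ x₂ y₁ y₂ with hL
  -- The slopes correspond by `L ↦ u L + s`.
  have hslope : W.toAffine.slope (oldX C x₁) (oldX C x₂) (oldY C x₁ y₁) (oldY C x₂ y₂)
      = (C.u : F) * L + C.s := by
    by_cases hx : x₁ = x₂
    · have hy : y₁ ≠ (C • W).toAffine.negY x₂ y₂ := fun e => hcase ⟨hx, e⟩
      have hy' : oldY C x₁ y₁ ≠ W.toAffine.negY (oldX C x₂) (oldY C x₂ y₂) := fun e =>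
        hcase' ⟨congrArg (oldX C) hx, e⟩
      obtain rfl := (Y_eq_of_X_eq h₁.1 h₂.1 hx).resolve_right hy
      subst hx
      have hd : y₁ - (C • W).toAffine.negY x₁ y₁ ≠ 0 := sub_ne_zero.mpr hy
      rw [hL, slope_of_Y_ne rfl hy', slope_of_Y_ne rfl hy]
      have hd' : oldY C x₁ y₁ - W.toAffine.negY (oldX C x₁) (oldY C x₁ y₁)
          = (C.u : F) ^ 3 * (y₁ - (C • W).toAffine.negY x₁ y₁) := by
        rw [negY_old]; simp only [oldY]; ring
      rw [hd', mul_div_assoc', div_add' _ _ _ hd, div_eq_div_iff
        (mul_ne_zero (pow_ne_zero _ hu) hd) hd]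
      simp only [Affine.negY, oldX, oldY, variableChange_a₁, variableChange_a₂, variableChange_a₃,
        variableChange_a₄, Units.val_inv_eq_inv_val]
      field_simp
      ring
    · rw [hL, slope_of_X_ne (fun e => hx (oldX_injective C e)), slope_of_X_ne hx]
      have h0 : x₁ - x₂ ≠ 0 := sub_ne_zero.mpr hx
      simp only [oldX, oldY]
      rw [show (C.u : F) ^ 2 * x₁ + C.r - ((C.u : F) ^ 2 * x₂ + C.r)
        = (C.u : F) ^ 2 * (x₁ - x₂) by ring, mul_div_assoc', div_add' _ _ _ h0,
        div_eq_div_iff (mul_ne_zero (pow_ne_zero _ hu) h0) h0]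
      ring
  simp only [oldPointFun, Point.some.injEq, hslope]
  -- Hence so do the coordinates of the sum.
  have hX : oldX C ((C • W).toAffine.addX x₁ x₂ L)
      = W.toAffine.addX (oldX C x₁) (oldX C x₂) ((C.u : F) * L + C.s) := by
    simp only [Affine.addX, oldX, variableChange_a₁, variableChange_a₂, Units.val_inv_eq_inv_val]
    field_simp
    ring
  refine ⟨hX, ?_⟩
  rw [Affine.addY, Affine.addY, ← negY_old, hX]
  congr 1
  rw [Affine.negAddY, Affine.negAddY, ← hX]
  simp only [oldX, oldY]
  ring

/-- A change of coordinates is an isomorphism of groups of points. -/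
def pointEquiv : (C • W).toAffine.Point ≃+ W.toAffine.Point where
  toFun := oldPointFun C W
  invFun
    | .zero => .zero
    | .some _ _ h => .some _ _ (nonsingular_new C W h)
  left_inv := by
    rintro (_ | ⟨x, y, h⟩)
    · rfl
    · simp only [oldPointFun, Point.some.injEq]
      exact ⟨newX_oldX C x, newY_oldY C x y⟩
  right_inv := by
    rintro (_ | ⟨x, y, h⟩)
    · rfl
    · simp only [oldPointFun, Point.some.injEq]
      exact ⟨oldX_newX C x, oldY_newY C x y⟩
  map_add' := oldPointFun_add C W

/-- On an affine point the change of coordinates is given by the coordinate formulas. -/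
theorem pointEquiv_some {x y : F} (h : (C • W).toAffine.Nonsingular x y) :
    pointEquiv C W (.some _ _ h) = .some _ _ (nonsingular_old C W h) :=
  rfl

end Fermat.Agent.Carayol.Omega
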