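import Fermat.Agent.Carayol.Omega.TateSeries
import Fermat.Agent.Carayol.Omega.Cusp
import Fermat.Agent.Wp.Uniform
import Fermat.Agent.ModFun.JFun

/-!
# Torsion coordinates as functions on the upper half plane
-/

set_option autoImplicit false

noncomputable section

open UpperHalfPlane hiding I
open Complex Function
open scoped MatrixGroups PeriodPair Real

namespace Fermat.Agent.Carayol.Omega

open Fermat.Agent.ModFun

/-- The right action of `SL₂(ℤ)` on row vectors modulo `n`. -/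
def vmul {n : ℕ} (v : ZMod n × ZMod n) (γ : SL(2, ℤ)) : ZMod n × ZMod n :=
  (v.1 * (γ 0 0 : ℤ) + v.2 * (γ 1 0 : ℤ), v.1 * (γ 0 1 : ℤ) + v.2 * (γ 1 1 : ℤ))

/-- `-E₄/48`. -/
def fA (τ : ℍ) : ℂ := -ModularForm.E₄ τ / 48

/-- `E₆/864`. -/
def fB (τ : ℍ) : ℂ := ModularForm.E₆ τ / 864

/-- The short Weierstrass model attached to `τ`. -/
def curveAt (τ : ℍ) : WeierstrassCurve ℂ := ⟨0, 0, 0, fA τ, fB τ⟩

/-- `curveAt τ` is the curve of the lattice `ℤτ + ℤ`, scaled by `1/(2πi)`. -/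
def datumAt (τ : ℍ) : Wp.Datum (curveAt τ) (Wp.pairTau τ) where
  s := (2 * π * I)⁻¹
  s_ne := inv_ne_zero Complex.two_pi_I_ne_zero
  c₄_eq := by
    have hπ : (π : ℂ) ≠ 0 := Complex.ofReal_ne_zero.mpr Real.pi_ne_zero
    simp only [WeierstrassCurve.c₄, WeierstrassCurve.b₂, WeierstrassCurve.b₄, curveAt, fA,
      Wp.g₂_pairTau]
    field_simp
    ring_nf
    simp [show (I : ℂ) ^ 4 = 1 from by norm_num [Complex.I_pow_four]]
  c₆_eq := by
    have hπ : (π : ℂ) ≠ 0 := Complex.ofReal_ne_zero.mpr Real.pi_ne_zero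
    simp only [WeierstrassCurve.c₆, WeierstrassCurve.b₂, WeierstrassCurve.b₄, WeierstrassCurve.b₆,
      curveAt, fA, fB, Wp.g₃_pairTau]
    field_simp
    ring_nf
    simp [show (I : ℂ) ^ 6 = -1 from by rw [show (6 : ℕ) = 4 + 2 from rfl, pow_add]; simp]

variable {n : ℕ} [NeZero n]

variable (n) in
/-- The abscissa of the torsion point `v`, a form of weight `2`. -/
def fX (v : ZMod n × ZMod n) (τ : ℍ) : ℂ :=
  ℘[Wp.pairTau τ] (torsArg n v τ) / (2 * π * I) ^ 2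

variable (n) in
/-- The ordinate of the torsion point `v`, a form of weight `3`. -/
def fY (v : ZMod n × ZMod n) (τ : ℍ) : ℂ :=
  ℘'[Wp.pairTau τ] (torsArg n v τ) / (2 * (2 * π * I) ^ 3)

omit [NeZero n] in
theorem fX_zero : fX n 0 = 0 := by
  funext τ
  simp [fX, torsArg, PeriodPair.weierstrassP_zero]

omit [NeZero n] in
theorem fY_zero : fY n 0 = 0 := by
  funext τ
  simp [fY, torsArg, PeriodPair.derivWeierstrassP_zero]

theorem sub_mem_of_cast (τ : ℍ) {a b a' b' : ℤ} (ha : (a : ZMod n) = a') (hb : (b : ZMod n) = b') :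
    ((a : ℂ) * τ + b) / n - ((a' : ℂ) * τ + b') / n ∈ (Wp.pairTau τ).lattice := by
  obtain ⟨i, hi⟩ := (ZMod.intCast_eq_intCast_iff_dvd_sub a a' n).mp ha
  obtain ⟨j, hj⟩ := (ZMod.intCast_eq_intCast_iff_dvd_sub b b' n).mp hb
  refine Wp.mem_pairTau.mpr ⟨-i, -j, ?_⟩
  have hn : (n : ℂ) ≠ 0 := Nat.cast_ne_zero.mpr (NeZero.ne n)
  have hi' : (a' : ℂ) - a = n * i := by exact_mod_cast congrArg (Int.cast : ℤ → ℂ) hi
  have hj' : (b' : ℂ) - b = n * j := by exact_mod_cast congrArg (Int.cast : ℤ → ℂ) hj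
  push_cast
  field_simp
  linear_combination (τ : ℂ) * hi' + hj'

theorem torsArg_add (v w : ZMod n × ZMod n) (τ : ℍ) :
    torsArg n (v + w) τ - (torsArg n v τ + torsArg n w τ) ∈ (Wp.pairTau τ).lattice := by
  have := sub_mem_of_cast (n := n) τ (a := ((v + w).1.val : ℤ)) (b := ((v + w).2.val : ℤ))
    (a' := (v.1.val : ℤ) + w.1.val) (b' := (v.2.val : ℤ) + w.2.val) (by simp) (by simp)
  convert this using 1
  simp only [torsArg]
  push_cast
  ring

theorem torsArg_smul (γ : SL(2, ℤ)) (v : ZMod n × ZMod n) (τ : ℍ) :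
    ((γ 1 0 : ℂ) * τ + γ 1 1) * torsArg n v (γ • τ) - torsArg n (vmul v γ) τ
      ∈ (Wp.pairTau τ).lattice := by
  have hden : ((γ 1 0 : ℂ) * τ + γ 1 1) ≠ 0 :=
    ModularGroup.denom_apply γ τ ▸ UpperHalfPlane.denom_ne_zero _ τ
  have := sub_mem_of_cast (n := n) τ
    (a := (v.1.val : ℤ) * γ 0 0 + (v.2.val : ℤ) * γ 1 0)
    (b := (v.1.val : ℤ) * γ 0 1 + (v.2.val : ℤ) * γ 1 1)
    (a' := ((vmul v γ).1.val : ℤ)) (b' := ((vmul v γ).2.val : ℤ))
    (by simp [vmul]) (by simp [vmul])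
  convert this using 1
  simp only [torsArg]
  rw [show ((γ • τ : ℍ) : ℂ) = ((γ 0 0 : ℂ) * τ + γ 0 1) / ((γ 1 0 : ℂ) * τ + γ 1 1) by
    rw [UpperHalfPlane.specialLinearGroup_apply]; simp]
  push_cast
  field_simp
  ring

theorem fX_smul (γ : SL(2, ℤ)) (v : ZMod n × ZMod n) (τ : ℍ) :
    fX n v (γ • τ) = ((γ 1 0 : ℂ) * τ + γ 1 1) ^ 2 * fX n (vmul v γ) τ := by
  set μ : ℂ := (γ 1 0 : ℂ) * τ + γ 1 1 with hμdef
  have hμ : μ ≠ 0 := by
    rw [hμdef, ← ModularGroup.denom_apply]; exact UpperHalfPlane.denom_ne_zero _ τ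
  have h := Wp.weierstrassP_mul hμ (Wp.mem_pairTau_smul γ τ) (torsArg n v (γ • τ))
  have h' := torsArg_smul γ v τ
  rw [← hμdef] at h'
  rw [show μ * torsArg n v (γ • τ) = torsArg n (vmul v γ) τ
    + (μ * torsArg n v (γ • τ) - torsArg n (vmul v γ) τ) by ring,
    Wp.weierstrassP_add_of_mem h'] at h
  simp only [fX, h]
  field_simp

theorem fY_smul (γ : SL(2, ℤ)) (v : ZMod n × ZMod n) (τ : ℍ) :
    fY n v (γ • τ) = ((γ 1 0 : ℂ) * τ + γ 1 1) ^ 3 * fY n (vmul v γ) τ := by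
  set μ : ℂ := (γ 1 0 : ℂ) * τ + γ 1 1 with hμdef
  have hμ : μ ≠ 0 := by
    rw [hμdef, ← ModularGroup.denom_apply]; exact UpperHalfPlane.denom_ne_zero _ τ
  have h := Wp.derivWeierstrassP_mul hμ (Wp.mem_pairTau_smul γ τ) (torsArg n v (γ • τ))
  have h' := torsArg_smul γ v τ
  rw [← hμdef] at h'
  rw [show μ * torsArg n v (γ • τ) = torsArg n (vmul v γ) τ
    + (μ * torsArg n v (γ • τ) - torsArg n (vmul v γ) τ) by ring,
    Wp.derivWeierstrassP_add_of_mem h'] at h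
  simp only [fY, h]
  field_simp

theorem fA_smul (γ : SL(2, ℤ)) (τ : ℍ) :
    fA (γ • τ) = ((γ 1 0 : ℂ) * τ + γ 1 1) ^ 4 * fA τ := by
  have h : ModularForm.E₄ (γ • τ) = denom γ τ ^ (4 : ℤ) * ModularForm.E₄ τ :=
    SlashInvariantForm.slash_action_eqn'' ModularForm.E₄ (Γ := 𝒮ℒ) ⟨γ, rfl⟩ τ
  rw [zpow_ofNat, ModularGroup.denom_apply] at h
  rw [fA, fA, h]
  ring

theorem hasSum_fX {v : ZMod n × ZMod n} (hv : v ≠ 0) (τ : ℍ) :
    HasSum (fun k => (xSeries n (zetaN n) v).coeff k • qFun n τ ^ k) (fX n v τ) := by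
  simpa [smul_eq_mul, fX] using hasSum_xSeries n hv τ

theorem hasSum_fY {v : ZMod n × ZMod n} (hv : v ≠ 0) (τ : ℍ) :
    HasSum (fun k => (ySeries n (zetaN n) v).coeff k • qFun n τ ^ k) (fY n v τ) := by
  simpa [smul_eq_mul, fY] using hasSum_ySeries n hv τ

theorem fX_mem (v : ZMod n × ZMod n) : fX n v ∈ CuspAlg n := by
  rcases eq_or_ne v 0 with rfl | hv
  · rw [fX_zero]; exact zero_mem _
  · exact BddAlg_le_CuspAlg n (mem_BddAlg_of_hasSum_qFun (hasSum_fX hv))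

theorem fY_mem (v : ZMod n × ZMod n) : fY n v ∈ CuspAlg n := by
  rcases eq_or_ne v 0 with rfl | hv
  · rw [fY_zero]; exact zero_mem _
  · exact BddAlg_le_CuspAlg n (mem_BddAlg_of_hasSum_qFun (hasSum_fY hv))

omit [NeZero n] in
variable (n) in
theorem fA_mem : fA ∈ CuspAlg n := by
  have h1 : (ModularForm.E₄ : ℍ → ℂ) ∈ BddAlg n :=
    ⟨ModularForm.E₄.holo', PerH.of_one E₄_mem_BddAlg.2.1 n, E₄_mem_BddAlg.2.2⟩
  have h2 := BddAlg_le_CuspAlg n (Subalgebra.smul_mem _ h1 (-1 / 48 : ℂ))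
  convert h2 using 1
  funext τ
  simp [fA]
  ring

theorem E₆_mem_BddAlg : (ModularForm.E₆ : ℍ → ℂ) ∈ BddAlg 1 := by
  refine ⟨ModularForm.E₆.holo', fun τ => ?_, ModularFormClass.bdd_at_infty ModularForm.E₆⟩
  simpa using SlashInvariantForm.vAdd_apply_of_mem_strictPeriods ModularForm.E₆ τ
    one_mem_strictPeriods_SL

omit [NeZero n] in
variable (n) in
theorem fB_mem : fB ∈ CuspAlg n := by
  have h1 : (ModularForm.E₆ : ℍ → ℂ) ∈ BddAlg n :=
    ⟨ModularForm.E₆.holo', PerH.of_one E₆_mem_BddAlg.2.1 n, E₆_mem_BddAlg.2.2⟩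
  have h2 := BddAlg_le_CuspAlg n (Subalgebra.smul_mem _ h1 (1 / 864 : ℂ))
  convert h2 using 1
  funext τ
  simp [fB]
  ring

/-- The torsion homomorphism at `τ`. -/
def torsHom (τ : ℍ) [DecidableEq ℂ] : ZMod n × ZMod n →+ (curveAt τ).toAffine.Point :=
  AddMonoidHom.mk' (fun v => (datumAt τ).hom (torsArg n v τ)) fun v w => by
    rw [← map_add, ← sub_eq_zero, ← map_sub, (datumAt τ).hom_eq_zero_iff]
    exact torsArg_add v w τ

/-- `torsHom τ` is injective on `(ℤ/n)²`. -/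
theorem torsHom_injective (τ : ℍ) [DecidableEq ℂ] :
    Function.Injective (torsHom (n := n) τ) := by
  refine (injective_iff_map_eq_zero _).mpr fun v hv => ?_
  exact (torsArg_mem_iff n v τ).mp ((datumAt τ).hom_eq_zero_iff.mp hv)

/-- A nonzero label goes to the point `(fX, fY)`. -/
theorem torsHom_apply (τ : ℍ) [DecidableEq ℂ] {v : ZMod n × ZMod n} (hv : v ≠ 0) :
    ∃ h, torsHom (n := n) τ v = .some (fX n v τ) (fY n v τ) h := by
  have hz : torsArg n v τ ∉ (Wp.pairTau τ).lattice := (torsArg_mem_iff n v τ).not.mpr hv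
  have hX : (datumAt τ).xval (torsArg n v τ) = fX n v τ := by
    simp [Wp.Datum.xval, fX, datumAt, curveAt, WeierstrassCurve.b₂]
    ring_nf
    simp
  have hY : (datumAt τ).yval (torsArg n v τ) = fY n v τ := by
    simp [Wp.Datum.yval, fY, datumAt, curveAt]
    ring_nf
    simp [show (I : ℂ) ^ 3 = -I from by simp [pow_succ]]
    ring_nf
    simp [show (I : ℂ) ^ 3 = -I from by simp [pow_succ]]
    ring
  refine ⟨hX ▸ hY ▸ (datumAt τ).nonsingular hz, ?_⟩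
  show (datumAt τ).point (torsArg n v τ) = _
  rw [(datumAt τ).point_of_notMem hz]
  simp only [WeierstrassCurve.Affine.Point.some.injEq]
  exact ⟨hX, hY⟩

/-- The curve at `τ` is nonsingular. -/
theorem curveAt_Δ_ne (τ : ℍ) : (curveAt τ).Δ ≠ 0 := by
  intro h0
  have h := (curveAt τ).c_relation
  rw [h0, mul_zero] at h
  have hD := ModularForm.discriminant_eq_E₄_cube_sub_E₆_sq τ
  refine ModularForm.discriminant_ne_zero τ ?_
  have e4 : (curveAt τ).c₄ = ModularForm.E₄ τ := by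
    simp [WeierstrassCurve.c₄, WeierstrassCurve.b₂, WeierstrassCurve.b₄, curveAt, fA]; ring
  have e6 : (curveAt τ).c₆ = -ModularForm.E₆ τ := by
    simp [WeierstrassCurve.c₆, WeierstrassCurve.b₂, WeierstrassCurve.b₄, WeierstrassCurve.b₆,
      curveAt, fB]; ring
  rw [e4, e6] at h
  rw [hD]
  linear_combination (-1 / 1728 : ℂ) * h

end Fermat.Agent.Carayol.Omega
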