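import Fermat.Agent.Carayol.Omega.Field
import Fermat.Agent.ModFun.Degree
import Mathlib.FieldTheory.Galois.Infinite

/-!
# The field of level `n` is Galois over `k(j)`

The main theorems are `Setup.isGalois_base` and `Setup.exists_moves_of_fj`.
-/

set_option autoImplicit false

noncomputable section

open UpperHalfPlane hiding I
open Function
open scoped MatrixGroups

namespace Fermat.Agent.Carayol.Omega

open Fermat.Agent.ModFun
open ModularCurve (coeffMap qExpand jqModC)
open Polynomial

/-! ### Polynomials in `j` -/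

/-- Evaluation of polynomials at `j` in the variable `q^{1/n}`. -/
def evalJ (n : ℕ) [NeZero n] (K : Type*) [Field K] : K[X] →+* LaurentSeries K :=
  (qExpand K n).comp (Polynomial.eval₂RingHom HahnSeries.C (jqModC K))

theorem evalJ_C (n : ℕ) [NeZero n] {K : Type*} [Field K] (a : K) :
    evalJ n K (Polynomial.C a) = HahnSeries.C a := by
  simp [evalJ, HahnSeries.C_apply, ModularCurve.qExpand_single]

theorem evalJ_X (n : ℕ) [NeZero n] (K : Type*) [Field K] :
    evalJ n K Polynomial.X = qExpand K n (jqModC K) := by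
  simp [evalJ]

theorem evalJ_injective (n : ℕ) [NeZero n] (K : Type*) [Field K] :
    Function.Injective (evalJ n K) :=
  (ModularCurve.qExpand_injective n).comp eval₂_jqModC_injective

theorem coeffMap_evalJ (n : ℕ) [NeZero n] {K L : Type*} [Field K] [Field L] (f : K →+* L)
    (P : K[X]) : coeffMap f (evalJ n K P) = evalJ n L (P.map f) := by
  suffices h : (coeffMap f).comp (evalJ n K) = (evalJ n L).comp (Polynomial.mapRingHom f) from
    RingHom.congr_fun h P
  refine Polynomial.ringHom_ext (fun a => ?_) ?_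
  · simp [evalJ_C, HahnSeries.C_apply]
  · simp [evalJ_X, ModularCurve.coeffMap_qExpand, ModularCurve.coeffMap_jqModC]

theorem coeff_evalJ_top (n : ℕ) [NeZero n] {K : Type*} [Field K] (P : K[X]) :
    (evalJ n K P).coeff ((n : ℤ) * -(P.natDegree : ℤ)) = P.leadingCoeff :=
  (ModularCurve.qExpand_coeff_mul n _ _).trans (coeff_aeval_jqModC_neg_natDegree P)

/-- A polynomial in `j` with expansion over `K` has coefficients in `K`. -/
theorem exists_map_eq_of_evalJ (n : ℕ) [NeZero n] {K L : Type*} [Field K] [Field L]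
    (f : K →+* L) : ∀ (d : ℕ) (P : L[X]), P.natDegree ≤ d → ∀ s : LaurentSeries K,
      coeffMap f s = evalJ n L P → ∃ Q : K[X], Q.map f = P := by
  intro d
  induction d with
  | zero =>
    intro P hP s hs
    have hc := coeff_evalJ_top n P
    rw [← hs, ModularCurve.coeffMap_coeff, Nat.le_zero.mp hP] at hc
    exact ⟨Polynomial.C (s.coeff ((n : ℤ) * -((0 : ℕ) : ℤ))), by
      rw [Polynomial.map_C, hc, Polynomial.leadingCoeff, Nat.le_zero.mp hP]
      exact (Polynomial.eq_C_of_natDegree_le_zero hP).symm⟩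
  | succ d ih =>
    intro P hP s hs
    rcases Nat.lt_or_ge P.natDegree (d + 1) with hlt | hge
    · exact ih P (Nat.lt_succ_iff.mp hlt) s hs
    have hc := coeff_evalJ_top n P
    rw [← hs, ModularCurve.coeffMap_coeff] at hc
    set a := s.coeff ((n : ℤ) * -(P.natDegree : ℤ))
    obtain ⟨Q, hQ⟩ := ih P.eraseLead (by
        have := Polynomial.eraseLead_natDegree_le P
        omega) (s - evalJ n K (Polynomial.C a * Polynomial.X ^ P.natDegree)) (by
        rw [map_sub, coeffMap_evalJ, hs, ← map_sub (evalJ n L)]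
        congr 1
        rw [Polynomial.map_mul, Polynomial.map_C, Polynomial.map_pow, Polynomial.map_X, hc,
          Polynomial.self_sub_C_mul_X_pow])
    refine ⟨Q + Polynomial.C a * Polynomial.X ^ P.natDegree, ?_⟩
    rw [Polynomial.map_add, hQ, Polynomial.map_mul, Polynomial.map_C, Polynomial.map_pow,
      Polynomial.map_X, hc, Polynomial.eraseLead_add_C_mul_X_pow]

/-! ### Substitutions and fixed elements -/

namespace Setup

variable {n : ℕ} [NeZero n] {K : Type*} [Field K] [CharZero K] (E : Setup n K)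

theorem pull_pull (γ δ : SL(2, ℤ)) (f : E.ring) :
    E.pull δ (E.pull γ f) = E.pull (γ * δ) f :=
  E.eq_of_ev fun τ => by rw [ev_pull, ev_pull, ev_pull, mul_smul]

/-- Substitution depends only on the matrix modulo `n`. -/
theorem pull_congr {γ δ : SL(2, ℤ)} (h : redMat n γ = redMat n δ) (f : E.ring) :
    E.pull γ f = E.pull δ f := by
  obtain ⟨f, hf⟩ := f
  induction hf using Subring.closure_induction with
  | mem x hx =>
    rcases hx with ⟨c, rfl⟩ | ⟨g, hg, rfl⟩
    · exact (E.pull_constA γ c).trans (E.pull_constA δ c).symm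
    · refine (E.pull_genA γ hg).trans (Eq.trans ?_ (E.pull_genA δ hg).symm)
      simp only [genA, h]
  | zero =>
    show E.pull γ 0 = E.pull δ 0
    rw [map_zero, map_zero]
  | one =>
    show E.pull γ 1 = E.pull δ 1
    rw [map_one, map_one]
  | add x y hx hy ihx ihy =>
    show E.pull γ (⟨x, hx⟩ + ⟨y, hy⟩) = E.pull δ (⟨x, hx⟩ + ⟨y, hy⟩)
    rw [map_add, map_add, ihx, ihy]
  | neg x hx ihx =>
    show E.pull γ (-⟨x, hx⟩) = E.pull δ (-⟨x, hx⟩)
    rw [map_neg, map_neg, ihx]
  | mul x y hx hy ihx ihy =>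
    show E.pull γ (⟨x, hx⟩ * ⟨y, hy⟩) = E.pull δ (⟨x, hx⟩ * ⟨y, hy⟩)
    rw [map_mul, map_mul, ihx, ihy]

theorem finite_pulls (f : E.ring) : (Set.range fun γ : SL(2, ℤ) => E.pull γ f).Finite := by
  refine Set.Finite.subset (Set.finite_range (fun M : Set.range (redMat n) =>
    E.pull M.2.choose f)) ?_
  rintro _ ⟨γ, rfl⟩
  exact ⟨⟨redMat n γ, γ, rfl⟩,
    E.pull_congr (Exists.choose_spec (p := fun δ => redMat n δ = redMat n γ) _) f⟩

theorem exists_poly_of_pull_eq {f : E.ring} (h : ∀ γ, E.pull γ f = f) :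
    ∃ P : K[X], E.toSer f = evalJ n K P := by
  have hinv : ∀ (γ : SL(2, ℤ)) τ, ((f : E.R) : ℍ → ℂ) (γ • τ) = ((f : E.R) : ℍ → ℂ) τ :=
    fun γ τ => by
      have := E.ev_pull γ f τ
      rw [h γ] at this
      exact this.symm
  have hmem := E.mem_CuspAlg' (f : E.R)
  obtain ⟨P, hP⟩ := exists_jPoly_eq hmem.1 hinv hmem.2.2
  have e : E.incl f = Polynomial.aeval (jC n) P := cuspAlg_ext fun τ => by
    rw [← evJC, evJC_apply]
    exact hP τ
  have e2 : laurentExp n (E.incl f) = evalJ n ℂ P := by
    rw [e, ← Polynomial.aeval_algHom_apply]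
    have hj : laurentExp n (jC n) = qExpand ℂ n (jqModC ℂ) := by
      obtain ⟨h', e'⟩ := exists_qExpand (n := n) (jH_mem_CuspAlg 1) laurentExp_jC
      exact e'
    rw [hj, Polynomial.aeval_def, algebraMap_laurent_eq_C]
    suffices (Polynomial.eval₂RingHom (HahnSeries.C : ℂ →+* LaurentSeries ℂ)
        (qExpand ℂ n (jqModC ℂ))) = evalJ n ℂ from RingHom.congr_fun this P
    exact Polynomial.ringHom_ext (fun a => by simp [evalJ_C]) (by simp [evalJ_X])
  obtain ⟨Q, hQ⟩ := exists_map_eq_of_evalJ n E.ι P.natDegree P le_rfl (E.toSer f)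
    (by rw [coeffMap_toSer, e2])
  refine ⟨Q, coeffMap_injective_of_field E.ι ?_⟩
  rw [coeffMap_toSer, coeffMap_evalJ, hQ, e2]

/-- The expansion of a nonzero element of the ring is nonzero. -/
theorem toSer_coe_ne_zero {f : E.ring} (hf : f ≠ 0) : E.toSer (f : E.R) ≠ 0 := by
  intro h
  rw [← map_zero E.toSer] at h
  exact hf (Subtype.ext (E.toSer_injective h))

theorem pull_ne_zero (γ : SL(2, ℤ)) {f : E.ring} (hf : f ≠ 0) : E.pull γ f ≠ 0 := by
  intro h
  rw [← map_zero (E.pull γ)] at h
  exact hf (E.pull_injective γ h)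

attribute [local irreducible] Setup.toSer Setup.pull Setup.toFrac

variable (k : Type*) [Field k] [Algebra k K]

theorem exists_fraction_of_subst_fixed {x : E.field k}
    (hx : ∀ γ : SL(2, ℤ), E.substHom k γ x = (x : LaurentSeries K)) :
    ∃ P Q : K[X], Q ≠ 0 ∧ (x : LaurentSeries K) * evalJ n K Q = evalJ n K P := by
  classical
  obtain ⟨a, b, hb, hab⟩ := IsFractionRing.div_surjective (A := E.ring) (E.toFrac k x)
  have hb0 : b ≠ 0 := nonZeroDivisors.ne_zero hb
  have hxe : ∀ γ, (x : LaurentSeries K) * E.toSer (E.pull γ b) = E.toSer (E.pull γ a) := fun γ => by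
    have h1 : E.fracPull γ (E.toFrac k x) = (x : LaurentSeries K) := hx γ
    rw [← hab, map_div₀, fracPull_algebraMap, fracPull_algebraMap] at h1
    rw [← h1, div_mul_cancel₀ _ (E.toSer_coe_ne_zero (E.pull_ne_zero γ hb0))]
  set S : Finset E.ring := (E.finite_pulls b).toFinset
  have hS : ∀ δ, S.image (E.pull δ) = S := fun δ => by
    refine Finset.eq_of_subset_of_card_le ?_ ?_
    · intro y hy
      obtain ⟨z, hz, rfl⟩ := Finset.mem_image.mp hy
      obtain ⟨γ, rfl⟩ := (E.finite_pulls b).mem_toFinset.mp hz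
      exact (E.finite_pulls b).mem_toFinset.mpr ⟨γ * δ, (E.pull_pull γ δ b).symm⟩
    · rw [Finset.card_image_of_injective _ (E.pull_injective δ)]
  set B := ∏ y ∈ S, y
  have hB : ∀ δ, E.pull δ B = B := fun δ => by
    rw [map_prod, ← Finset.prod_image (f := fun y => y) (g := E.pull δ)
      (fun y _ z _ h => E.pull_injective δ h), hS δ]
  have hB0 : B ≠ 0 := Finset.prod_ne_zero_iff.mpr fun y hy => by
    obtain ⟨γ, rfl⟩ := (E.finite_pulls b).mem_toFinset.mp hy
    exact E.pull_ne_zero γ hb0
  obtain ⟨B', hB'⟩ : E.pull 1 b ∣ B :=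
    Finset.dvd_prod_of_mem id ((E.finite_pulls b).mem_toFinset.mpr ⟨1, rfl⟩)
  have hb1 : E.pull 1 b = b := E.eq_of_ev fun τ => by rw [ev_pull, one_smul]
  have ha1 : E.pull 1 a = a := E.eq_of_ev fun τ => by rw [ev_pull, one_smul]
  rw [hb1] at hB'
  have hxB : (x : LaurentSeries K) * E.toSer B = E.toSer (a * B' : E.ring) := by
    rw [hB']
    show (x : LaurentSeries K) * E.toSer ((b : E.R) * B') = E.toSer ((a : E.R) * B')
    rw [map_mul, map_mul, ← mul_assoc, ← hb1, hxe, ha1]
  have hA : ∀ δ, E.pull δ (a * B') = a * B' := fun δ => E.toSer_sub_injective (by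
    show E.toSer (E.pull δ (a * B') : E.ring) = E.toSer ((a * B' : E.ring) : E.R)
    rw [← hxB, ← congrArg (fun y : E.ring => E.toSer y) (hB δ), hB', map_mul, map_mul]
    show E.toSer ((E.pull δ a : E.R) * E.pull δ B') = _ * E.toSer ((E.pull δ b : E.R) * E.pull δ B')
    rw [map_mul, map_mul, ← mul_assoc, hxe])
  obtain ⟨P, hP⟩ := E.exists_poly_of_pull_eq hA
  obtain ⟨Q, hQ⟩ := E.exists_poly_of_pull_eq hB
  refine ⟨P, Q, fun h0 => hB0 (E.toSer_sub_injective ?_), by rw [← hQ, ← hP, hxB]⟩
  show E.toSer B = E.toSer.comp E.ring.subtype 0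
  rw [hQ, h0, map_zero, map_zero]

omit [CharZero K] in
theorem evalJ_map_mem (P : k[X]) :
    evalJ n K (P.map (algebraMap k K)) ∈
      IntermediateField.adjoin k ({qExpand K n (jqModC K)} : Set (LaurentSeries K)) := by
  induction P using Polynomial.induction_on' with
  | add p q hp hq => rw [Polynomial.map_add, map_add]; exact add_mem hp hq
  | monomial i c =>
    rw [Polynomial.map_monomial, ← Polynomial.C_mul_X_pow_eq_monomial, map_mul, map_pow, evalJ_C,
      evalJ_X, ← algebraMap_laurent_comp]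
    exact mul_mem (IntermediateField.algebraMap_mem _ c)
      (pow_mem (IntermediateField.subset_adjoin k _ (Set.mem_singleton _)) i)

/-- An element fixed by all automorphisms moving labels lies in `k(j)`. -/
theorem mem_adjoin_j_of_fixed [IsGalois k K] {x : E.field k}
    (hx : ∀ e M, E.Moves k e M → e x = x) :
    (x : LaurentSeries K) ∈
      IntermediateField.adjoin k ({qExpand K n (jqModC K)} : Set (LaurentSeries K)) := by
  classical
  -- `x` is invariant under substitutions and under Galois acting on coefficients.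
  have h1 : ∀ γ : SL(2, ℤ), E.substHom k γ x = (x : LaurentSeries K) := fun γ => by
    obtain ⟨e, he, he'⟩ := E.exists_moves_subst k γ
    rw [← he', hx e _ he]
  have h2 : ∀ σ : K ≃ₐ[k] K,
      coeffMap (σ : K →+* K) (x : LaurentSeries K) = (x : LaurentSeries K) := fun σ => by
    obtain ⟨c, e, -, -, he, he'⟩ := E.exists_moves_conj k σ
    rw [← he', hx e _ he]
  let S : Set ℕ := {d | ∃ P Q : K[X], Q ≠ 0 ∧ Q.natDegree = d ∧
    (x : LaurentSeries K) * evalJ n K Q = evalJ n K P}
  -- Write `x = P(j) / Q(j)` with `Q` monic of least degree.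
  obtain ⟨P₁, Q₁, hQ₁, hPQ₁⟩ := E.exists_fraction_of_subst_fixed k h1
  have hS : ∃ d, d ∈ S := ⟨_, P₁, Q₁, hQ₁, rfl, hPQ₁⟩
  obtain ⟨P₂, Q₂, hQ₂, hd, hPQ₂⟩ := Nat.find_spec hS
  set Q := Polynomial.C Q₂.leadingCoeff⁻¹ * Q₂ with hQdef
  set P := Polynomial.C Q₂.leadingCoeff⁻¹ * P₂ with hPdef
  have hlc : Q₂.leadingCoeff⁻¹ ≠ 0 := inv_ne_zero (Polynomial.leadingCoeff_ne_zero.mpr hQ₂)
  have hQm : Q.Monic := by
    rw [hQdef, mul_comm]; exact Polynomial.monic_mul_leadingCoeff_inv hQ₂
  have hQd : Q.natDegree = Nat.find hS := by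
    rw [hQdef, Polynomial.natDegree_C_mul hlc, hd]
  have hPQ : (x : LaurentSeries K) * evalJ n K Q = evalJ n K P := by
    rw [hQdef, hPdef, map_mul, map_mul, ← hPQ₂]; ring
  -- By minimality `P` and `Q` are fixed by Galois, so defined over `k`.
  have hfix : ∀ σ : K ≃ₐ[k] K, Q.map (σ : K →+* K) = Q ∧ P.map (σ : K →+* K) = P := fun σ => by
    have e : (x : LaurentSeries K) * evalJ n K (Q.map (σ : K →+* K))
        = evalJ n K (P.map (σ : K →+* K)) := by
      rw [← coeffMap_evalJ, ← coeffMap_evalJ, ← hPQ, map_mul (coeffMap (σ : K →+* K)), h2 σ]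
    have hQeq : Q.map (σ : K →+* K) = Q := by
      by_contra hne
      have hD0 : Q - Q.map (σ : K →+* K) ≠ 0 := sub_ne_zero.mpr (Ne.symm hne)
      have hlt : (Q - Q.map (σ : K →+* K)).natDegree < Nat.find hS := by
        rw [← hQd]
        refine Polynomial.natDegree_lt_natDegree hD0
          (Polynomial.degree_sub_lt_left ?_ hQm.ne_zero ?_)
        · exact (Polynomial.degree_map _ _).symm
        · rw [hQm.leadingCoeff, (hQm.map _).leadingCoeff]
      exact Nat.find_min hS hlt
        ⟨P - P.map (σ : K →+* K), _, hD0, rfl, by rw [map_sub, mul_sub, hPQ, e, map_sub]⟩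
    refine ⟨hQeq, evalJ_injective n K ?_⟩
    rw [← e, hQeq, hPQ]
  have hlift : ∀ R : K[X], (∀ σ : K ≃ₐ[k] K, R.map (σ : K →+* K) = R) →
      ∃ R' : k[X], R'.map (algebraMap k K) = R := fun R hR => by
    have : R ∈ Polynomial.lifts (algebraMap k K) :=
      (Polynomial.lifts_iff_coeff_lifts R).mpr fun i => by
        rw [InfiniteGalois.mem_range_algebraMap_iff_fixed]
        intro σ
        conv_rhs => rw [← hR σ]
        rw [Polynomial.coeff_map]
        rfl
    obtain ⟨R', hR'⟩ := this
    exact ⟨R', hR'⟩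
  obtain ⟨Q', hQ'⟩ := hlift Q fun σ => (hfix σ).1
  obtain ⟨P', hP'⟩ := hlift P fun σ => (hfix σ).2
  have hne : evalJ n K Q ≠ 0 :=
    (map_ne_zero_iff _ (evalJ_injective n K)).mpr hQm.ne_zero
  rw [eq_div_iff hne |>.mpr hPQ, ← hQ', ← hP']
  exact div_mem (evalJ_map_mem k P') (evalJ_map_mem k Q')

/-! ### The Galois group over `k(j)` -/

/-- The automorphisms moving labels, as a group. -/
def movesGroup : Subgroup (E.field k ≃ₐ[k] E.field k) where
  carrier := {e | ∃ M, E.Moves k e M}
  mul_mem' := fun ⟨_, he⟩ ⟨_, hf⟩ => ⟨_, he.mul hf⟩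
  one_mem' := ⟨1, moves_one⟩
  inv_mem' := fun ⟨_, he⟩ => he.symm

instance : Finite (E.movesGroup k) := by
  refine Finite.of_injective (fun e : E.movesGroup k => e.2.choose) fun e f h => Subtype.ext ?_
  have he := e.2.choose_spec
  have hf := f.2.choose_spec
  rw [show e.2.choose = f.2.choose from h] at he
  exact he.ext hf

/-- `k(j)` inside the field. -/
def base : IntermediateField k (E.field k) := IntermediateField.adjoin k {E.fj k}

theorem lift_base : IntermediateField.lift (E.base k) =
    IntermediateField.adjoin k ({qExpand K n (jqModC K)} : Set (LaurentSeries K)) := by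
  rw [base, IntermediateField.lift_adjoin, Set.image_singleton, coe_fj]

variable [IsGalois k K]

theorem fixedField_movesGroup :
    IntermediateField.fixedField (E.movesGroup k) = E.base k := by
  refine le_antisymm (fun x hx => ?_) ?_
  · have h := E.mem_adjoin_j_of_fixed k (x := x) fun e M he => hx ⟨e, M, he⟩
    rw [← lift_base] at h
    exact (IntermediateField.mem_lift x).mp h
  · rw [base, IntermediateField.adjoin_le_iff, Set.singleton_subset_iff]
    rintro ⟨e, M, he⟩
    exact he.apply_fj

/-- The field of level `n` is finite over its base. -/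
theorem finiteDimensional_base : FiniteDimensional (E.base k) (E.field k) := by
  rw [← fixedField_movesGroup]
  exact inferInstanceAs
    (FiniteDimensional (FixedPoints.subfield (E.movesGroup k) (E.field k)) (E.field k))

theorem isGalois_base : IsGalois (E.base k) (E.field k) := by
  rw [← fixedField_movesGroup]
  exact inferInstanceAs
    (IsGalois (FixedPoints.subfield (E.movesGroup k) (E.field k)) (E.field k))

theorem fixingSubgroup_base : (E.base k).fixingSubgroup = E.movesGroup k := by
  rw [← fixedField_movesGroup]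
  refine le_antisymm (fun e he => ?_) ((IntermediateField.le_iff_le _ _).mp le_rfl)
  obtain ⟨g, hg⟩ := FixedPoints.toAlgAut_surjective (E.movesGroup k) (E.field k)
    { e with commutes' := fun y => he ⟨y, y.2⟩ }
  have : (g : E.field k ≃ₐ[k] E.field k) = e :=
    AlgEquiv.ext fun x => AlgEquiv.congr_fun hg x
  exact this ▸ g.2

/-- Every automorphism fixing `j` moves labels by a matrix. -/
theorem exists_moves_of_fj {e : E.field k ≃ₐ[k] E.field k} (he : e (E.fj k) = E.fj k) :
    ∃ M, E.Moves k e M := by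
  have h : e ∈ (E.base k).fixingSubgroup := by
    rw [IntermediateField.mem_fixingSubgroup_iff]
    intro x hx
    induction hx using IntermediateField.adjoin_induction with
    | mem x hx => rw [Set.mem_singleton_iff.mp hx]; exact he
    | algebraMap c => exact e.commutes c
    | add x y _ _ hx hy => rw [map_add, hx, hy]
    | inv x _ hx => rw [map_inv₀, hx]
    | mul x y _ _ hx hy => rw [map_mul, hx, hy]
  rw [fixingSubgroup_base] at h
  exact h

end Setup

end Fermat.Agent.Carayol.Omega
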