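import Fermat.Agent.Carayol.Omega.Functions

/-!
# Eisenstein sums of a lattice containing `ℤτ + ℤ`
-/

set_option autoImplicit false

noncomputable section

open UpperHalfPlane hiding I
open Complex Function Filter Topology
open scoped PeriodPair Real

namespace Fermat.Agent.Carayol.Omega

variable {L : PeriodPair} {z : ℂ}

/-- `∑ (l - z)⁻⁴ = ℘² - g₂/12`. -/
theorem sumInvPow_four (hz : z ∉ L.lattice) :
    L.sumInvPow z 4 = ℘[L] z ^ 2 - L.g₂ / 12 := by
  have h := L.deriv_derivWeierstrassPExcept_self z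
  rw [L.derivWeierstrassPExcept_of_notMem z hz, Wp.deriv_derivWeierstrassP hz] at h
  linear_combination (-1 / 6 : ℂ) * h

/-- `∑ (l - z)⁻⁶ = ℘³ - 3g₂℘/20 - g₃/10`. -/
theorem sumInvPow_six (hz : z ∉ L.lattice) :
    L.sumInvPow z 6 = ℘[L] z ^ 3 - 3 * L.g₂ * ℘[L] z / 20 - L.g₃ / 10 := by
  have h := L.iteratedDeriv_derivWeierstrassPExcept_self z (n := 3)
  rw [L.derivWeierstrassPExcept_of_notMem z hz] at h
  have hU : (L.lattice : Set ℂ)ᶜ ∈ 𝓝 z := (Wp.isOpen_compl_lattice L).mem_nhds hz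
  have h1 : deriv ℘'[L] =ᶠ[𝓝 z] fun w => 6 * ℘[L] w ^ 2 - L.g₂ / 2 := by
    filter_upwards [hU] with w hw
    exact Wp.deriv_derivWeierstrassP hw
  have h2 : deriv (deriv ℘'[L]) =ᶠ[𝓝 z] fun w => 12 * (℘[L] w * ℘'[L] w) := by
    filter_upwards [h1.eventuallyEq_nhds, hU] with w hw hw'
    rw [hw.deriv_eq]
    have hd := (((Wp.hasDerivAt_weierstrassP (L := L) hw').fun_pow 2).const_mul (6 : ℂ)).sub_const
      (L.g₂ / 2)
    rw [hd.deriv]
    push_cast
    ring
  have h3 : deriv (deriv (deriv ℘'[L])) z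
      = 12 * (℘'[L] z * ℘'[L] z + ℘[L] z * (6 * ℘[L] z ^ 2 - L.g₂ / 2)) := by
    rw [h2.deriv_eq]
    exact (((Wp.hasDerivAt_weierstrassP (L := L) hz).fun_mul
      (Wp.hasDerivAt_derivWeierstrassP hz)).const_mul (12 : ℂ)).deriv
  have e : iteratedDeriv 3 ℘'[L] z = deriv (deriv (deriv ℘'[L])) z := by
    simp [iteratedDeriv_succ, iteratedDeriv_zero]
  rw [e, h3] at h
  norm_num [Nat.factorial] at h
  linear_combination (-1 / 120 : ℂ) * h + (1 / 10 : ℂ) * L.derivWeierstrassP_sq z hz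

theorem sumInvPow_neg (x : ℂ) {r : ℕ} (hr : Even r) : L.sumInvPow (-x) r = L.sumInvPow x r := by
  rw [PeriodPair.sumInvPow, PeriodPair.sumInvPow, ← (Equiv.neg L.lattice).tsum_eq]
  refine tsum_congr fun l => ?_
  rw [← hr.neg_pow ((l : ℂ) - x)]
  simp [neg_add_eq_sub]

variable {n : ℕ} [NeZero n]

/-- A finite set of labels describing a lattice containing `ℤτ + ℤ`, similar to `ℤτ' + ℤ`. -/
structure LatticeSum (S : Finset (ZMod n × ZMod n)) (τ τ' : ℍ) where
  /-- The similitude. -/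
  μ : ℂ
  μ_ne : μ ≠ 0
  mem_iff : ∀ z : ℂ, μ * z ∈ (Wp.pairTau τ').lattice ↔
    ∃ w ∈ S, z - torsArg n w τ ∈ (Wp.pairTau τ).lattice

variable {S : Finset (ZMod n × ZMod n)} {τ τ' : ℍ}

theorem LatticeSum.zero_label_mem (D : LatticeSum S τ τ') : (0 : ZMod n × ZMod n) ∈ S := by
  obtain ⟨w, hw, h⟩ := (D.mem_iff 0).mp (by rw [mul_zero]; exact zero_mem _)
  rw [zero_sub, neg_mem_iff, torsArg_mem_iff] at h
  exact h ▸ hw

theorem LatticeSum.sub_mem_iff {v w : ZMod n × ZMod n} :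
    torsArg n v τ - torsArg n w τ ∈ (Wp.pairTau τ).lattice ↔ v = w := by
  refine ⟨fun h => ?_, fun h => by rw [h, sub_self]; exact zero_mem _⟩
  refine sub_eq_zero.mp ((torsArg_mem_iff n (v - w) τ).mp ?_)
  have h' := torsArg_add (v - w) w τ
  rw [sub_add_cancel] at h'
  have := sub_mem h h'
  simpa using this

/-- `G` of the big lattice as a sum over the labels. -/
theorem LatticeSum.G_eq (D : LatticeSum S τ τ') {r : ℕ} (hr : 2 < r) (hev : Even r) :
    D.μ ^ r * (Wp.pairTau τ').G r = ∑ w ∈ S, (Wp.pairTau τ).sumInvPow (torsArg n w τ) r := by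
  set Λ := (Wp.pairTau τ).lattice
  have hmem : ∀ (w : S) (l : Λ), D.μ * ((l : ℂ) + torsArg n w τ) ∈ (Wp.pairTau τ').lattice :=
    fun w l => (D.mem_iff _).mpr ⟨w, w.2, by simp⟩
  let e : S × Λ → (Wp.pairTau τ').lattice := fun p => ⟨_, hmem p.1 p.2⟩
  have he : Bijective e := by
    constructor
    · rintro ⟨w, l⟩ ⟨w', l'⟩ h
      have h1 : (l : ℂ) + torsArg n w τ = l' + torsArg n w' τ :=
        mul_left_cancel₀ D.μ_ne (congrArg Subtype.val h)
      have h2 : (w : ZMod n × ZMod n) = w' := LatticeSum.sub_mem_iff.mp (by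
        rw [show torsArg n w τ - torsArg n w' τ = (l' : ℂ) - l by linear_combination h1]
        exact sub_mem l'.2 l.2)
      obtain rfl : w = w' := Subtype.ext h2
      obtain rfl : l = l' := Subtype.ext (add_right_cancel h1)
      rfl
    · rintro ⟨y, hy⟩
      obtain ⟨w, hw, hl⟩ := (D.mem_iff (D.μ⁻¹ * y)).mp
        (by rw [mul_inv_cancel_left₀ D.μ_ne]; exact hy)
      refine ⟨(⟨w, hw⟩, ⟨_, hl⟩), Subtype.ext ?_⟩
      show D.μ * (D.μ⁻¹ * y - torsArg n w τ + torsArg n w τ) = y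
      rw [sub_add_cancel, mul_inv_cancel_left₀ D.μ_ne]
  have hG : HasSum (fun y : (Wp.pairTau τ').lattice => D.μ ^ r * ((y : ℂ) ^ r)⁻¹)
      (D.μ ^ r * (Wp.pairTau τ').G r) := by
    refine HasSum.mul_left _ ?_
    have := (Wp.pairTau τ').hasSum_sumInvPow 0 hr
    simpa [PeriodPair.sumInvPow_zero] using this
  have h1 : HasSum (fun p : S × Λ => (((p.2 : ℂ) - (-torsArg n p.1 τ)) ^ r)⁻¹)
      (D.μ ^ r * (Wp.pairTau τ').G r) := by
    refine ((Equiv.ofBijective e he).hasSum_iff.mpr hG).congr_fun fun p => ?_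
    simp only [comp_apply, Equiv.ofBijective_apply, e, mul_pow, sub_neg_eq_add, mul_inv,
      mul_inv_cancel_left₀ (pow_ne_zero r D.μ_ne)]
  have h2 : HasSum (fun w : S => (Wp.pairTau τ).sumInvPow (-torsArg n w τ) r)
      (D.μ ^ r * (Wp.pairTau τ').G r) :=
    HasSum.prod_fiberwise (g := fun w : S => (Wp.pairTau τ).sumInvPow (-torsArg n w τ) r) h1
      fun w => (Wp.pairTau τ).hasSum_sumInvPow (-torsArg n w τ) hr
  rw [← h2.tsum_eq, tsum_fintype, ← Finset.sum_coe_sort S]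
  exact Finset.sum_congr rfl fun w _ => sumInvPow_neg _ hev

/-- The invariants of the big lattice in terms of the torsion coordinates. -/
theorem LatticeSum.invariants (D : LatticeSum S τ τ') :
    D.μ ^ 4 * fA τ' = fA τ - ∑ w ∈ S.erase 0, (15 * fX n w τ ^ 2 + 5 * fA τ) ∧
      D.μ ^ 6 * fB τ'
        = fB τ - ∑ w ∈ S.erase 0, (35 * fX n w τ ^ 3 + 21 * fA τ * fX n w τ + 14 * fB τ) := by
  have hπ : (π : ℂ) ≠ 0 := Complex.ofReal_ne_zero.mpr Real.pi_ne_zero
  have eA : ∀ t : ℍ, fA t = -15 * ((Wp.pairTau t).G 4) / (2 * π * I) ^ 4 := fun t => by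
    have h := Wp.g₂_pairTau t
    rw [PeriodPair.g₂] at h
    have hG : (Wp.pairTau t).G 4 = 4 * π ^ 4 / 3 * ModularForm.E₄ t / 60 := by
      linear_combination h / 60
    rw [fA, hG]
    field_simp
    ring_nf
    simp [show (I : ℂ) ^ 4 = 1 from by norm_num [Complex.I_pow_four]]
  have eB : ∀ t : ℍ, fB t = -35 * ((Wp.pairTau t).G 6) / (2 * π * I) ^ 6 := fun t => by
    have h := Wp.g₃_pairTau t
    rw [PeriodPair.g₃] at h
    have hG : (Wp.pairTau t).G 6 = 8 * π ^ 6 / 27 * ModularForm.E₆ t / 140 := by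
      linear_combination h / 140
    rw [fB, hG]
    field_simp
    ring_nf
    simp [show (I : ℂ) ^ 6 = -1 from by rw [show (6 : ℕ) = 4 + 2 from rfl, pow_add]; simp]
  have h4 := D.G_eq (r := 4) (by norm_num) ⟨2, rfl⟩
  have h6 := D.G_eq (r := 6) (by norm_num) ⟨3, rfl⟩
  rw [← Finset.add_sum_erase _ _ D.zero_label_mem, show torsArg n (0 : ZMod n × ZMod n) τ = 0 by
    simp [torsArg], PeriodPair.sumInvPow_zero] at h4 h6
  have hne : ∀ w ∈ S.erase 0, torsArg n w τ ∉ (Wp.pairTau τ).lattice := fun w hw =>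
    (torsArg_mem_iff n w τ).not.mpr (Finset.ne_of_mem_erase hw)
  have s4 : ∀ w ∈ S.erase 0, 15 * fX n w τ ^ 2 + 5 * fA τ
      = 15 * (Wp.pairTau τ).sumInvPow (torsArg n w τ) 4 / (2 * π * I) ^ 4 := fun w hw => by
    rw [sumInvPow_four (hne w hw), fX, eA, PeriodPair.g₂]
    field_simp
    ring
  have s6 : ∀ w ∈ S.erase 0, 35 * fX n w τ ^ 3 + 21 * fA τ * fX n w τ + 14 * fB τ
      = 35 * (Wp.pairTau τ).sumInvPow (torsArg n w τ) 6 / (2 * π * I) ^ 6 := fun w hw => by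
    rw [sumInvPow_six (hne w hw), fX, eA, eB, PeriodPair.g₂, PeriodPair.g₃]
    field_simp
    ring
  rw [Finset.sum_congr rfl s4, Finset.sum_congr rfl s6, ← Finset.sum_div, ← Finset.sum_div,
    ← Finset.mul_sum, ← Finset.mul_sum, eA, eB, eA, eB]
  exact ⟨by linear_combination (-15 / (2 * π * I : ℂ) ^ 4) * h4,
    by linear_combination (-35 / (2 * π * I : ℂ) ^ 6) * h6⟩

end Fermat.Agent.Carayol.Omega
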