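import Fermat.Agent.Carayol.Omega.Level
import Fermat.Agent.Carayol.Omega.LatticeJ
import Fermat.Agent.Carayol.Comb
import Fermat.Agent.ModFun.Hol

/-!
# The invariants `j (dτ/q)` in the field of level `q n`

`τ ↦ τ/q` sends `j (dτ)`, `d ∣ q²M`, into the field of level `q n`. The diagonal matrices fix the
images; the upper unipotent ones fix them for `d ∣ qM`, the lower ones for `q ∣ d`; and the
upper, respectively lower, unipotent group moves the image of `j (q²τ)`, respectively `j (τ)`.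
-/

set_option autoImplicit false

noncomputable section

open UpperHalfPlane hiding I
open Complex Matrix CongruenceSubgroup
open scoped MatrixGroups

namespace Fermat.Agent.Carayol.Omega

open Fermat.Agent.ModFun
open ModularCurve (coeffMap qExpand jqModC)

theorem moveSet_eq_self {n : ℕ} [NeZero n] {M : Matrix (Fin 2) (Fin 2) (ZMod n)} (hM : IsUnit M)
    {S : Finset (ZMod n × ZMod n)} (h : ∀ w ∈ S, vm w M ∈ S) : moveSet M S = S :=
  Finset.eq_of_subset_of_card_le (fun _ hz => by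
    obtain ⟨w, hw, rfl⟩ := Finset.mem_image.mp hz
    exact h w hw) (Finset.card_image_of_injective _ (vm_injective hM)).ge

/-- A box is stable when the off-diagonal entries map the two factors into each other. -/
theorem moveSet_boxLabels {n : ℕ} [NeZero n] {M : Matrix (Fin 2) (Fin 2) (ZMod n)}
    (hM : IsUnit M) {u v : ℕ} (h10 : ∀ x : ZMod n, v • x = 0 → u • (x * M 1 0) = 0)
    (h01 : ∀ x : ZMod n, u • x = 0 → v • (x * M 0 1) = 0) :
    moveSet M (boxLabels n u v) = boxLabels n u v := by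
  refine moveSet_eq_self hM fun w hw => ?_
  obtain ⟨h1, h2⟩ := mem_boxLabels.mp hw
  refine mem_boxLabels.mpr ⟨?_, ?_⟩
  · show u • (w.1 * M 0 0 + w.2 * M 1 0) = 0
    rw [smul_add, ← smul_mul_assoc, h1, zero_mul, zero_add, h10 _ h2]
  · show v • (w.1 * M 0 1 + w.2 * M 1 1) = 0
    rw [smul_add, h01 _ h1, zero_add, ← smul_mul_assoc, h2, zero_mul]

section Entries

variable {q n : ℕ} (h : q.Coprime n)

theorem isUnit_liftMat (g : GL (Fin 2) (ZMod q)) :
    IsUnit (liftMat h (g : Matrix (Fin 2) (Fin 2) (ZMod q))) :=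
  IsUnit.of_mul_eq_one (liftMat h ((g⁻¹ : GL (Fin 2) (ZMod q)) : Matrix (Fin 2) (Fin 2) (ZMod q)))
    (by rw [← liftMat_mul, ← Units.val_mul, inv_mul_cancel, Units.val_one, liftMat_one])

theorem liftMat_eq_zero {g : Matrix (Fin 2) (Fin 2) (ZMod q)} {i j : Fin 2} (hij : i ≠ j)
    (hg : g j i = 0) : liftMat h g i j = 0 := by
  apply (crt h).injective
  rw [crt_liftMat, hg, Matrix.one_apply_ne hij, map_zero, Prod.mk_zero_zero]

theorem mul_liftMat_eq_zero {g : Matrix (Fin 2) (Fin 2) (ZMod q)} {i j : Fin 2} (hij : i ≠ j)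
    {x : ZMod (q * n)} {M' : ℕ} (hM' : M' ∣ n) (hx : M' • x = 0) : x * liftMat h g i j = 0 := by
  obtain ⟨s, rfl⟩ := hM'
  have h1 : (crt h x).1 = 0 := crt_fst_of_nsmul h (by rw [mul_nsmul, hx, smul_zero])
  apply (crt h).injective
  rw [map_mul, crt_liftMat, Matrix.one_apply_ne hij, map_zero, Prod.ext_iff]
  exact ⟨by simp [h1], by simp⟩

theorem intCast_eq_zero_of_liftMat {g : Matrix (Fin 2) (Fin 2) (ZMod q)} {i j : Fin 2} {α : ℤ}
    (hα : (α : ZMod (q * n)) = liftMat h g i j) (hq : (q : ℤ) ∣ α) : g j i = 0 := by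
  have := congrArg (fun z => (crt h z).1) hα
  simp only [map_intCast, Prod.fst_intCast, crt_liftMat] at this
  rw [← this, ZMod.intCast_zmod_eq_zero_iff_dvd]
  exact hq

end Entries

namespace Setup

attribute [local irreducible] Setup.toSer Setup.pull Setup.toFrac

section Fix

variable {n : ℕ} [NeZero n] {K : Type*} [Field K] [CharZero K] (E : Setup n K)
  (k : Type*) [Field k] [Algebra k K]

theorem apply_smul_of_subst_fix (g : E.R) (γ : SL(2, ℤ))
    (hγ : (fun τ => (g : ℍ → ℂ) (γ • τ)) ∈ CuspAlg n) {x : E.field k}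
    (hx : (x : LaurentSeries K) = E.toSer g) (hfix : E.substHom k γ x = (x : LaurentSeries K))
    (τ : ℍ) : (g : ℍ → ℂ) (γ • τ) = (g : ℍ → ℂ) τ := by
  obtain ⟨a, b, hb, hab⟩ := IsFractionRing.div_surjective (A := E.ring) (E.toFrac k x)
  have hb0 : b ≠ 0 := nonZeroDivisors.ne_zero hb
  have e1 : (a : E.R) = g * b := E.toSer_injective (by
    have h1 := E.fracSer_toFrac k x
    rw [← hab, map_div₀, fracSer_algebraMap, fracSer_algebraMap, hx,
      div_eq_iff (E.toSer_coe_ne_zero hb0)] at h1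
    rw [map_mul, h1])
  have e2 : (E.pull γ a : E.R) = g * E.pull γ b := E.toSer_injective (by
    have h1 : E.fracPull γ (E.toFrac k x) = (x : LaurentSeries K) := hfix
    rw [← hab, map_div₀, fracPull_algebraMap, fracPull_algebraMap, hx,
      div_eq_iff (E.toSer_coe_ne_zero (E.pull_ne_zero γ hb0))] at h1
    rw [map_mul, h1])
  set G : CuspAlg n := ⟨_, hγ⟩
  have key : (G - E.incl g) * E.incl (E.pull γ b : E.R) = 0 := by
    refine Subtype.ext (funext fun τ => ?_)
    have v1 := congrArg (E.ev (γ • τ)) e1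
    have v2 := congrArg (E.ev τ) e2
    simp only [map_mul, ev_pull] at v1 v2
    show ((g : ℍ → ℂ) (γ • τ) - (g : ℍ → ℂ) τ) * E.ev τ (E.pull γ b) = 0
    rw [ev_pull]
    simp only [E.ev_apply] at v1 v2 ⊢
    linear_combination v2 - v1
  have hne : E.incl (E.pull γ b : E.R) ≠ 0 := fun h0 =>
    E.pull_ne_zero γ hb0 (Subtype.ext (Subtype.ext
      (congrArg (fun f : CuspAlg n => (f : ℍ → ℂ)) h0 :)))
  have := congrArg (fun f : CuspAlg n => (f : ℍ → ℂ) τ)
    (sub_eq_zero.mp ((mul_eq_zero.mp key).resolve_right hne))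
  exact this

/-- A substitution fixing `j (v δτ)` is conjugate by `δ` into `Γ₀(v)`. -/
theorem conj_mem_Gamma0_of_fix {v : ℕ} [NeZero v] (hv : v ∣ n) (δ γ : SL(2, ℤ)) (g : E.R)
    (hg : ∀ τ, (g : ℍ → ℂ) τ = jH (scaleH v (δ • τ))) {e : E.field k ≃ₐ[k] E.field k}
    (he : E.Moves k e (redMat n γ)) {x : E.field k} (hx : (x : LaurentSeries K) = E.toSer g)
    (hfix : e x = x) : δ * γ * δ⁻¹ ∈ Gamma0 v := by
  obtain ⟨e', he', hval⟩ := E.exists_moves_subst k γ
  obtain rfl := he'.ext he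
  have hmem : (fun τ => (g : ℍ → ℂ) (γ • τ)) ∈ CuspAlg n := by
    have h1 : (compSL v (δ * γ) (jd dvd_rfl) : ℍ → ℂ) ∈ CuspAlg v := SetLike.coe_mem _
    obtain ⟨s, rfl⟩ := hv
    have : NeZero s := ⟨right_ne_zero_of_mul (NeZero.ne (v * s))⟩
    have h2 := CuspAlg_le_mul (h := v) s h1
    convert h2 using 1
    · rw [mul_comm]
    · funext τ
      rw [compSL_apply, jd_apply, hg, mul_smul]
  refine mem_Gamma0_of_jd_smul _ fun τ => ?_
  have h := E.apply_smul_of_subst_fix k g γ hmem hx (by rw [← hval, hfix]) (δ⁻¹ • τ)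
  rw [hg, hg, smul_inv_smul] at h
  rw [mul_smul, mul_smul]
  exact h

end Fix

variable {q n : ℕ} [NeZero (q * n)] {K : Type*} [Field K] [CharZero K] (E : Setup (q * n) K)
  (k : Type*) [Field k] [Algebra k K]
  {P : ZMod (q * n) × ZMod (q * n)} (hP : GoodPt P)

include hP in
theorem qExpand_jq_mem (u v m : ℕ) [NeZero m] (hu : u ∣ q * n) (hv : v ∣ q * n)
    (hm : q * n / u * v = m) :
    ∃ x : E.field k, (x : LaurentSeries K) = qExpand K m (jqModC K) ∧
      x = E.fJ k hP (boxLabels (q * n) u v) := by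
  have : NeZero u := ⟨ne_zero_of_dvd_ne_zero (NeZero.ne (q * n)) hu⟩
  have : NeZero v := ⟨ne_zero_of_dvd_ne_zero (NeZero.ne (q * n)) hv⟩
  have : NeZero (q * n / u * v) := ⟨hm ▸ NeZero.ne m⟩
  refine ⟨_, ?_, rfl⟩
  rw [coe_fJ, E.jSer_boxLabels u v hu hv]
  exact ModularCurve.qExpand_congr hm _

variable [NeZero n]

include hP

/-- The box whose invariant is `j (dτ/q)`. -/
theorem exists_box (hq : q.Prime) {M d : ℕ} [NeZero d] (hM : M ∣ n) (hd : d ∣ q * M * q) :
    ∃ x : E.field k, (x : LaurentSeries K) = qExpand K n (qExpand K d (jqModC K)) ∧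
      ((q ∣ d ∧ ∃ v, d = q * v ∧ v ∣ q * M ∧ x = E.fJ k hP (boxLabels (q * n) 1 v)) ∨
        (¬ q ∣ d ∧ d ∣ M ∧ x = E.fJ k hP (boxLabels (q * n) q d))) := by
  by_cases h : q ∣ d
  · obtain ⟨v, rfl⟩ := h
    have hv : v ∣ q * M := Nat.dvd_of_mul_dvd_mul_left hq.pos (by rwa [mul_comm (q * M) q] at hd)
    obtain ⟨x, hx, hx'⟩ := E.qExpand_jq_mem k hP 1 v (n * (q * v)) (one_dvd _)
      (hv.trans (mul_dvd_mul_left q hM)) (by rw [Nat.div_one]; ring)
    exact ⟨x, by rw [ModularCurve.qExpand_qExpand, hx], Or.inl ⟨dvd_mul_right q v, v, rfl, hv, hx'⟩⟩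
  · have hc : d.Coprime q := ((hq.coprime_iff_not_dvd).mpr h).symm
    have hdM : d ∣ M := hc.dvd_of_dvd_mul_left (hc.dvd_of_dvd_mul_right hd)
    obtain ⟨x, hx, hx'⟩ := E.qExpand_jq_mem k hP q d (n * d) (dvd_mul_right q n)
      (dvd_mul_of_dvd_right (hdM.trans hM) q) (by rw [Nat.mul_div_cancel_left n hq.pos])
    exact ⟨x, by rw [ModularCurve.qExpand_qExpand, hx], Or.inr ⟨h, hdM, hx'⟩⟩

/-- `j (dτ/q)` lies in the field for `d ∣ q²M`. -/
theorem qExpand_jd_mem (hq : q.Prime) {M d : ℕ} [NeZero d] (hM : M ∣ n) (hd : d ∣ q * M * q) :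
    qExpand K n (qExpand K d (jqModC K)) ∈ E.field k := by
  obtain ⟨x, hx, -⟩ := E.exists_box k hP hq hM hd
  exact hx ▸ x.2

variable [NeZero q] (hcop : q.Coprime n)

include hcop

omit [NeZero q] in
variable {k} in
/-- Diagonal matrices fix `j (dτ/q)` for `d ∣ q²M`. -/
theorem fixed_diag (hq : q.Prime) {M d : ℕ} [NeZero d] (hM : M ∣ n) (hd : d ∣ q * M * q)
    {g : GL (Fin 2) (ZMod q)} (hg01 : (g : Matrix (Fin 2) (Fin 2) (ZMod q)) 0 1 = 0)
    (hg10 : (g : Matrix (Fin 2) (Fin 2) (ZMod q)) 1 0 = 0) {e : E.field k ≃ₐ[k] E.field k}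
    (he : E.Moves k e (liftMat hcop (g : Matrix (Fin 2) (Fin 2) (ZMod q)))) {y : E.field k}
    (hy : (y : LaurentSeries K) = qExpand K n (qExpand K d (jqModC K))) : e y = y := by
  obtain ⟨x, hx, hbox⟩ := E.exists_box k hP hq hM hd
  obtain rfl : y = x := Subtype.ext (hy.trans hx.symm)
  have z1 := liftMat_eq_zero hcop (i := 1) (j := 0) (by decide) hg01
  have z0 := liftMat_eq_zero hcop (i := 0) (j := 1) (by decide) hg10
  rcases hbox with ⟨-, v, -, -, rfl⟩ | ⟨-, -, rfl⟩ <;>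
  rw [he.apply_fJ' E k hP, moveSet_boxLabels (isUnit_liftMat hcop g) (by simp [z1]) (by simp [z0])]

omit [NeZero q] in
variable {k} in
/-- Upper unipotent matrices fix `j (dτ/q)` for `d ∣ qM`. -/
theorem fixed_uPlus (hq : q.Prime) {M d : ℕ} [NeZero d] (hM : M ∣ n) (hd : d ∣ q * M)
    (a : ZMod q) {e : E.field k ≃ₐ[k] E.field k}
    (he : E.Moves k e (liftMat hcop (uPlus a : Matrix (Fin 2) (Fin 2) (ZMod q)))) {y : E.field k}
    (hy : (y : LaurentSeries K) = qExpand K n (qExpand K d (jqModC K))) : e y = y := by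
  obtain ⟨x, hx, hbox⟩ := E.exists_box k hP hq hM (hd.trans (dvd_mul_right _ q))
  obtain rfl : y = x := Subtype.ext (hy.trans hx.symm)
  have z0 := liftMat_eq_zero hcop (g := (uPlus a : Matrix (Fin 2) (Fin 2) (ZMod q))) (i := 0)
    (j := 1) (by decide) (by simp [uPlus])
  rcases hbox with ⟨-, v, rfl, -, rfl⟩ | ⟨-, hdM, rfl⟩
  · rw [he.apply_fJ' E k hP, moveSet_boxLabels (isUnit_liftMat hcop _)
      (fun x hx => by rw [one_smul, mul_liftMat_eq_zero hcop (by decide)
        ((Nat.dvd_of_mul_dvd_mul_left hq.pos hd).trans hM) hx]) (by simp [z0])]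
  · rw [he.apply_fJ' E k hP, moveSet_boxLabels (isUnit_liftMat hcop _)
      (fun x hx => by rw [mul_liftMat_eq_zero hcop (by decide) (hdM.trans hM) hx, smul_zero])
      (by simp [z0])]

omit [NeZero q] in
variable {k} in
/-- Lower unipotent matrices fix `j (dτ/q)` for `q ∣ d ∣ q²M`. -/
theorem fixed_uMinus (hq : q.Prime) {M d : ℕ} [NeZero d] (hM : M ∣ n) (hd : d ∣ q * M * q)
    (hqd : q ∣ d) (a : ZMod q) {e : E.field k ≃ₐ[k] E.field k}
    (he : E.Moves k e (liftMat hcop (uMinus a : Matrix (Fin 2) (Fin 2) (ZMod q)))) {y : E.field k}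
    (hy : (y : LaurentSeries K) = qExpand K n (qExpand K d (jqModC K))) : e y = y := by
  obtain ⟨x, hx, hbox⟩ := E.exists_box k hP hq hM hd
  obtain rfl : y = x := Subtype.ext (hy.trans hx.symm)
  have z1 := liftMat_eq_zero hcop (g := (uMinus a : Matrix (Fin 2) (Fin 2) (ZMod q))) (i := 1)
    (j := 0) (by decide) (by simp [uMinus])
  rcases hbox with ⟨-, v, rfl, -, rfl⟩ | ⟨hnd, -, -⟩
  · rw [he.apply_fJ' E k hP, moveSet_boxLabels (isUnit_liftMat hcop _) (by simp [z1])
      (fun x hx => by rw [one_smul] at hx; simp [hx])]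
  · exact absurd hqd hnd

omit hP in
variable {k} in
/-- The upper unipotent group moves `j (q²τ/q)`. -/
theorem eq_zero_of_uPlus_fix {a : ZMod q} {e : E.field k ≃ₐ[k] E.field k}
    (he : E.Moves k e (liftMat hcop (uPlus a : Matrix (Fin 2) (Fin 2) (ZMod q)))) {y : E.field k}
    (hy : (y : LaurentSeries K) = qExpand K n (qExpand K (q * q) (jqModC K)))
    (hfix : e y = y) : a = 0 := by
  obtain ⟨α, hα⟩ := ZMod.intCast_surjective
    (liftMat hcop (uPlus a : Matrix (Fin 2) (Fin 2) (ZMod q)) 1 0)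
  let γ : SL(2, ℤ) := ⟨!![1, 0; α, 1], by simp⟩
  have hγ : redMat (q * n) γ = liftMat hcop (uPlus a : Matrix (Fin 2) (Fin 2) (ZMod q)) := by
    ext i j
    apply (crt hcop).injective
    rw [crt_liftMat]
    fin_cases i <;> fin_cases j
    · simp [γ, redMat, uPlus, Prod.ext_iff]
    · simp [γ, redMat, uPlus, Prod.ext_iff]
    · show crt hcop (α : ZMod (q * n)) = _
      rw [hα, crt_liftMat]
      rfl
    · simp [γ, redMat, uPlus, Prod.ext_iff]
  obtain ⟨hmem, hser⟩ := E.exists_jUV 1 q (one_dvd _)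
  have : NeZero (q * n / 1 * q) := ⟨by rw [Nat.div_one]; exact NeZero.ne _⟩
  have h : (1 : SL(2, ℤ)) * γ * 1⁻¹ ∈ Gamma0 q := by
    refine E.conj_mem_Gamma0_of_fix k (dvd_mul_right q n) 1 γ ⟨_, hmem⟩
      (fun τ => by rw [one_smul]; rfl) (hγ ▸ he) (x := y) ?_ hfix
    rw [hy, hser, ModularCurve.qExpand_qExpand]
    exact ModularCurve.qExpand_congr (by rw [Nat.div_one]; ring) _
  rw [one_mul, inv_one, mul_one, Gamma0_mem, ZMod.intCast_zmod_eq_zero_iff_dvd] at h
  have h' : (q : ℤ) ∣ α := h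
  simpa [uPlus] using intCast_eq_zero_of_liftMat hcop hα h'

omit hP in
variable {k} in
/-- The lower unipotent group moves `j (τ/q)`. -/
theorem eq_zero_of_uMinus_fix {a : ZMod q} {e : E.field k ≃ₐ[k] E.field k}
    (he : E.Moves k e (liftMat hcop (uMinus a : Matrix (Fin 2) (Fin 2) (ZMod q)))) {y : E.field k}
    (hy : (y : LaurentSeries K) = qExpand K n (jqModC K)) (hfix : e y = y) : a = 0 := by
  -- Lift `u(a)` to an upper unipotent integral matrix `γ`.
  obtain ⟨α, hα⟩ := ZMod.intCast_surjective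
    (liftMat hcop (uMinus a : Matrix (Fin 2) (Fin 2) (ZMod q)) 0 1)
  let γ : SL(2, ℤ) := ⟨!![1, α; 0, 1], by simp⟩
  have hγ : redMat (q * n) γ = liftMat hcop (uMinus a : Matrix (Fin 2) (Fin 2) (ZMod q)) := by
    ext i j
    apply (crt hcop).injective
    rw [crt_liftMat]
    fin_cases i <;> fin_cases j
    · simp [γ, redMat, uMinus, Prod.ext_iff]
    · show crt hcop (α : ZMod (q * n)) = _
      rw [hα, crt_liftMat]
      rfl
    · simp [γ, redMat, uMinus, Prod.ext_iff]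
    · simp [γ, redMat, uMinus, Prod.ext_iff]
  obtain ⟨hmem, hser⟩ := E.exists_jUV q 1 (dvd_mul_right q n)
  have : NeZero (q * n / q * 1) :=
    ⟨by rw [Nat.mul_div_cancel_left n (NeZero.pos q), mul_one]; exact NeZero.ne n⟩
  -- If it fixes `j(τ/q)`, its conjugate by `S` lies in `Γ₀(q)`.
  have h : ModularGroup.S * γ * ModularGroup.S⁻¹ ∈ Gamma0 q := by
    refine E.conj_mem_Gamma0_of_fix k (dvd_mul_right q n) ModularGroup.S γ ⟨_, hmem⟩
      (fun τ => ?_) (hγ ▸ he)
      (x := y) ?_ hfix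
    · show jH (affine 1 0 q τ) = _
      rw [← jH_smul ModularGroup.S (scaleH q (ModularGroup.S • τ))]
      congr 1
      apply UpperHalfPlane.ext
      have hq : (q : ℂ) ≠ 0 := Nat.cast_ne_zero.mpr (NeZero.ne q)
      have hτ : (τ : ℂ) ≠ 0 := τ.ne_zero
      rw [UpperHalfPlane.modular_S_smul, coe_affine]
      simp only [coe_scaleH, UpperHalfPlane.modular_S_smul, Nat.cast_one,
        Int.cast_zero, one_mul, add_zero]
      field_simp
    · rw [hy, hser]
      exact ModularCurve.qExpand_congr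
        (by rw [Nat.mul_div_cancel_left n (NeZero.pos q), mul_one]) _
  rw [Gamma0_mem, ZMod.intCast_zmod_eq_zero_iff_dvd] at h
  -- So `q` divides its entry.
  have h' : (q : ℤ) ∣ α := by
    have e : ((ModularGroup.S * γ * ModularGroup.S⁻¹ : SL(2, ℤ)) 1 0 : ℤ) = -α := by
      have hγc : (γ : Matrix (Fin 2) (Fin 2) ℤ) = !![1, α; 0, 1] := rfl
      rw [Matrix.SpecialLinearGroup.coe_mul, Matrix.SpecialLinearGroup.coe_mul,
        Matrix.SpecialLinearGroup.coe_inv, ModularGroup.coe_S, hγc]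
      simp [Matrix.adjugate_fin_two, Matrix.mul_apply, Fin.sum_univ_two]
    rw [e] at h
    exact dvd_neg.mp h
  simpa [uMinus] using intCast_eq_zero_of_liftMat hcop hα h'

omit hP hcop

omit [NeZero q] [NeZero n] in
theorem act_moves [DecidableEq ℂ] [DecidableEq (E.field k)] [IsGalois k K] (hq : q.Prime) (L : ℕ)
    (hL : L = 7 ∨ L = 9) (hLn : L ∣ n) (hcop : q.Coprime n)
    (hgal : ∀ d : (ZMod q)ˣ, ∃ σ : K ≃ₐ[k] K, σ (E.ζ ^ q) = E.ζ ^ q ∧
      σ (E.ζ ^ n) = (E.ζ ^ n) ^ (d : ZMod q).val) (g : GL (Fin 2) (ZMod q)) :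
    E.Moves k ((E.tateLevel k hcop hq L hL hLn hgal).act g)
      (liftMat hcop (g : Matrix (Fin 2) (Fin 2) (ZMod q))) :=
  (E.exists_moves_lift k hcop hgal g).choose_spec

end Setup

end Fermat.Agent.Carayol.Omega
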