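import Fermat.Agent.Carayol.Omega.Gens

/-!
# The ring generated by `j` and the Tate coordinates, with substitutions and coefficient conjugation
-/

set_option autoImplicit false

noncomputable section

open UpperHalfPlane hiding I
open Function
open scoped MatrixGroups

namespace Fermat.Agent.Carayol.Omega

open Fermat.Agent.ModFun
open ModularCurve (coeffMap qExpand jqModC)

/-- Row vector times matrix. -/
def vm {n : ℕ} (v : ZMod n × ZMod n) (M : Matrix (Fin 2) (Fin 2) (ZMod n)) : ZMod n × ZMod n :=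
  (v.1 * M 0 0 + v.2 * M 1 0, v.1 * M 0 1 + v.2 * M 1 1)

theorem vm_mul {n : ℕ} (v : ZMod n × ZMod n) (M N : Matrix (Fin 2) (Fin 2) (ZMod n)) :
    vm v (M * N) = vm (vm v M) N := by
  simp only [vm, Prod.mk.injEq, Matrix.mul_apply, Fin.sum_univ_two]
  constructor <;> ring

theorem vm_one {n : ℕ} (v : ZMod n × ZMod n) : vm v 1 = v := by simp [vm]

theorem vm_nsmul {n : ℕ} (m : ℕ) (v : ZMod n × ZMod n) (M : Matrix (Fin 2) (Fin 2) (ZMod n)) :
    vm (m • v) M = m • vm v M := by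
  simp only [vm, Prod.smul_fst, Prod.smul_snd, Prod.smul_mk, smul_mul_assoc, smul_add]

theorem GoodPt.vm {n : ℕ} {P : ZMod n × ZMod n} (h : GoodPt P)
    {M : Matrix (Fin 2) (Fin 2) (ZMod n)} (hM : IsUnit M) : GoodPt (Omega.vm P M) := by
  obtain ⟨u, rfl⟩ := hM
  have inj : ∀ v, Omega.vm v (u : Matrix (Fin 2) (Fin 2) (ZMod n)) = 0 → v = 0 := fun v hv => by
    have h1 := congrArg (fun w => Omega.vm w (↑u⁻¹ : Matrix (Fin 2) (Fin 2) (ZMod n))) hv
    simp only [← vm_mul, Units.mul_inv, vm_one] at h1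
    rw [h1]
    simp [Omega.vm]
  exact ⟨fun e => h.1 (inj _ (by rw [vm_nsmul, e])), fun e => h.2 (inj _ (by rw [vm_nsmul, e]))⟩

/-- An integral matrix of determinant one, modulo `n`. -/
def redMat (n : ℕ) (γ : SL(2, ℤ)) : Matrix (Fin 2) (Fin 2) (ZMod n) :=
  (γ : Matrix (Fin 2) (Fin 2) ℤ).map (Int.cast : ℤ → ZMod n)

theorem det_redMat (n : ℕ) (γ : SL(2, ℤ)) : (redMat n γ).det = 1 := by
  rw [redMat, Matrix.det_fin_two]
  simp only [Matrix.map_apply]
  have h := γ.2
  rw [Matrix.det_fin_two] at h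
  exact_mod_cast congrArg (Int.cast : ℤ → ZMod n) h

theorem isUnit_redMat (n : ℕ) (γ : SL(2, ℤ)) : IsUnit (redMat n γ) :=
  (Matrix.isUnit_iff_isUnit_det _).mpr (by rw [det_redMat]; exact isUnit_one)

/-- `diag(1, c)`. -/
def diagMat (n : ℕ) (c : ZMod n) : Matrix (Fin 2) (Fin 2) (ZMod n) := !![1, 0; 0, c]

theorem vm_diagMat {n : ℕ} (v : ZMod n × ZMod n) (c : ZMod n) :
    vm v (diagMat n c) = (v.1, c * v.2) := by
  simp [vm, diagMat, mul_comm]

theorem det_diagMat (n : ℕ) (c : ZMod n) : (diagMat n c).det = c := by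
  simp [diagMat, Matrix.det_fin_two]

/-- The names of the generators. -/
inductive Gen (n : ℕ) : Type
  | jay : Gen n
  | tb (P : ZMod n × ZMod n) : Gen n
  | tc (P : ZMod n × ZMod n) : Gen n
  | tx (P v : ZMod n × ZMod n) : Gen n
  | ty (P v : ZMod n × ZMod n) : Gen n

/-- A generator at a point with a Tate normal form. -/
def Gen.Good {n : ℕ} : Gen n → Prop
  | .jay => True
  | .tb P => GoodPt P
  | .tc P => GoodPt P
  | .tx P _ => GoodPt P
  | .ty P _ => GoodPt P

/-- The action of a matrix on names. -/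
def Gen.move {n : ℕ} (M : Matrix (Fin 2) (Fin 2) (ZMod n)) : Gen n → Gen n
  | .jay => .jay
  | .tb P => .tb (vm P M)
  | .tc P => .tc (vm P M)
  | .tx P v => .tx (vm P M) (vm v M)
  | .ty P v => .ty (vm P M) (vm v M)

theorem Gen.Good.move {n : ℕ} {g : Gen n} (h : g.Good) {M : Matrix (Fin 2) (Fin 2) (ZMod n)}
    (hM : IsUnit M) : (g.move M).Good := by
  cases g <;> first | trivial | exact GoodPt.vm h hM

theorem Gen.move_move {n : ℕ} (g : Gen n) (M N : Matrix (Fin 2) (Fin 2) (ZMod n)) :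
    (g.move M).move N = g.move (M * N) := by
  cases g <;> simp [Gen.move, vm_mul]

theorem Gen.move_one {n : ℕ} (g : Gen n) : g.move (1 : Matrix (Fin 2) (Fin 2) (ZMod n)) = g := by
  cases g <;> simp [Gen.move, vm_one]

instance {n : ℕ} [NeZero n] : Finite (Gen n) := by
  refine Finite.of_injective (β := Option (Fin 4 × (ZMod n × ZMod n) × (ZMod n × ZMod n)))
    (fun
      | .jay => none
      | .tb P => some (0, P, 0)
      | .tc P => some (1, P, 0)
      | .tx P v => some (2, P, v)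
      | .ty P v => some (3, P, v)) ?_
  intro a b hab
  cases a <;> cases b <;> simp at hab ⊢ <;> exact hab

namespace Setup

variable {n : ℕ} [NeZero n] {K : Type*} [Field K] [CharZero K] (E : Setup n K)

omit [CharZero K] in
theorem jH_mem_R : ∃ h : jH ∈ E.R, E.toSer ⟨jH, h⟩ = qExpand K n (jqModC K) := by
  obtain ⟨h, e⟩ := exists_qExpand (n := n) (jH_mem_CuspAlg 1) laurentExp_jC
  have e' : laurentExp n ⟨jH, h⟩ = coeffMap E.ι (qExpand K n (jqModC K)) := by
    rw [e, ModularCurve.coeffMap_qExpand, ModularCurve.coeffMap_jqModC]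
  exact ⟨E.mem_R.mpr ⟨h, _, e'.symm⟩, E.toSer_eq e'⟩

/-- `j` as an element of `R`. -/
def rJ : E.R := ⟨jH, E.jH_mem_R.1⟩

omit [CharZero K] in
/-- The expansion of `j` in `q ^ (1/n)`. -/
theorem toSer_rJ : E.toSer E.rJ = qExpand K n (jqModC K) := E.jH_mem_R.2

/-- The generators as functions. -/
def gen : Gen n → E.R
  | .jay => E.rJ
  | .tb P => E.rTB P
  | .tc P => E.rTC P
  | .tx P v => E.rTX P v
  | .ty P v => E.rTY P v

theorem ev_gen_smul {g : Gen n} (hg : g.Good) (γ : SL(2, ℤ)) (τ : ℍ) :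
    E.ev (γ • τ) (E.gen g) = E.ev τ (E.gen (g.move (redMat n γ))) := by
  cases g with
  | jay => exact jH_smul γ τ
  | tb P => exact (E.ev_gens_smul hg γ τ).1
  | tc P => exact (E.ev_gens_smul hg γ τ).2.1
  | tx P v => exact ((E.ev_gens_smul hg γ τ).2.2 v).1
  | ty P v => exact ((E.ev_gens_smul hg γ τ).2.2 v).2

/-! ### Conjugation of coefficients -/

omit [CharZero K] in
theorem conj_rX (σ : K →+* K) {c : ℕ} (hσ : σ E.ζ = E.ζ ^ c) (hc : c.Coprime n)
    (v : ZMod n × ZMod n) :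
    coeffMap σ (E.toSer (E.rX v)) = E.toSer (E.rX (v.1, (c : ZMod n) * v.2)) ∧
      coeffMap σ (E.toSer (E.rY v)) = E.toSer (E.rY (v.1, (c : ZMod n) * v.2)) := by
  have hu : IsUnit (c : ZMod n) := (ZMod.isUnit_iff_coprime c n).mpr hc
  rcases eq_or_ne v 0 with rfl | hv
  · simp only [Prod.fst_zero, Prod.snd_zero, mul_zero, show ((0 : ZMod n), (0 : ZMod n)) =
      0 from rfl, E.toSer_rX_zero, E.toSer_rY_zero, map_zero, and_self]
  · have hv' : (v.1, (c : ZMod n) * v.2) ≠ 0 := fun h => hv (by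
      rw [Prod.mk_eq_zero, hu.mul_right_eq_zero] at h
      exact Prod.ext h.1 h.2)
    rw [E.toSer_rX hv, E.toSer_rX hv', E.toSer_rY hv, E.toSer_rY hv',
      ModularCurve.coeffMap_ofPowerSeries,
      ModularCurve.coeffMap_ofPowerSeries, map_xSeries, map_ySeries, hσ,
      xSeries_zeta_pow E.isPrimitiveRoot.pow_eq_one,
      ySeries_zeta_pow E.isPrimitiveRoot.pow_eq_one]
    exact ⟨rfl, rfl⟩

theorem conj_rat (σ : K →+* K) (s : LaurentSeries ℚ) :
    coeffMap σ (coeffMap (algebraMap ℚ K) s) = coeffMap (algebraMap ℚ K) s := by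
  rw [ModularCurve.coeffMap_coeffMap]
  exact ModularCurve.coeffMap_congr (RingHom.ext_rat _ _) s

theorem conj_curve (σ : K →+* K) :
    E.curve.map ((coeffMap σ).comp E.toSer) = E.curve.map E.toSer := by
  obtain ⟨sA, hA⟩ := E.fA_rat.2
  obtain ⟨sB, hB⟩ := E.fB_rat.2
  apply WeierstrassCurve.ext <;> simp only [curve, rA, rB, WeierstrassCurve.map_a₁,
    WeierstrassCurve.map_a₂, WeierstrassCurve.map_a₃, WeierstrassCurve.map_a₄,
    WeierstrassCurve.map_a₆, RingHom.comp_apply, map_zero, hA, hB, conj_rat]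

theorem conj_gen (σ : K →+* K) {c : ℕ} (hσ : σ E.ζ = E.ζ ^ c) (hc : c.Coprime n) {g : Gen n}
    (hg : g.Good) :
    coeffMap σ (E.toSer (E.gen g)) = E.toSer (E.gen (g.move (diagMat n c))) := by
  have hM : IsUnit (diagMat n (c : ZMod n)) := (Matrix.isUnit_iff_isUnit_det _).mpr (by
    rw [det_diagMat]; exact (ZMod.isUnit_iff_coprime c n).mpr hc)
  have hX : ∀ v, ((coeffMap σ).comp E.toSer) (E.rX v) = E.toSer (E.rX (vm v (diagMat n c))) :=
    fun v => by rw [vm_diagMat]; exact (E.conj_rX σ hσ hc v).1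
  have hY : ∀ v, ((coeffMap σ).comp E.toSer) (E.rY v) = E.toSer (E.rY (vm v (diagMat n c))) :=
    fun v => by rw [vm_diagMat]; exact (E.conj_rX σ hσ hc v).2
  cases g with
  | jay =>
    show coeffMap σ (E.toSer E.rJ) = E.toSer E.rJ
    rw [toSer_rJ, ModularCurve.coeffMap_qExpand, ModularCurve.coeffMap_jqModC]
  | tb P =>
    have e := (E.map_gens ((coeffMap σ).comp E.toSer) (P := P) hg).2.2.1
    rw [E.conj_curve, hX, hY, ← (E.map_gens E.toSer (GoodPt.vm hg hM)).2.2.1] at e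
    exact e
  | tc P =>
    have e := (E.map_gens ((coeffMap σ).comp E.toSer) (P := P) hg).2.2.2.1
    rw [E.conj_curve, hX, hY, ← (E.map_gens E.toSer (GoodPt.vm hg hM)).2.2.2.1] at e
    exact e
  | tx P v =>
    have e := ((E.map_gens ((coeffMap σ).comp E.toSer) (P := P) hg).2.2.2.2 v).1
    rw [E.conj_curve, hX, hX, hY, ← ((E.map_gens E.toSer (GoodPt.vm hg hM)).2.2.2.2 _).1] at e
    exact e
  | ty P v =>
    have e := ((E.map_gens ((coeffMap σ).comp E.toSer) (P := P) hg).2.2.2.2 v).2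
    rw [E.conj_curve, hX, hX, hY, hY,
      ← ((E.map_gens E.toSer (GoodPt.vm hg hM)).2.2.2.2 _).2] at e
    exact e

/-! ### Substitution -/

/-- The ring generated by the constants and the generators. -/
def ring : Subring E.R :=
  Subring.closure (Set.range E.const ∪ E.gen '' {g | g.Good})

theorem const_mem_ring (c : K) : E.const c ∈ E.ring :=
  Subring.subset_closure (Or.inl ⟨c, rfl⟩)

theorem gen_mem_ring {g : Gen n} (hg : g.Good) : E.gen g ∈ E.ring :=
  Subring.subset_closure (Or.inr ⟨g, hg, rfl⟩)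

/-- The ring generators as elements of the ring. -/
def genA {g : Gen n} (hg : g.Good) : E.ring := ⟨E.gen g, E.gen_mem_ring hg⟩

/-- The constants as elements of the ring. -/
def constA (c : K) : E.ring := ⟨E.const c, E.const_mem_ring c⟩

theorem exists_pull (γ : SL(2, ℤ)) (f : E.R) (hf : f ∈ E.ring) :
    ∃ g ∈ E.ring, ∀ τ, E.ev τ g = E.ev (γ • τ) f := by
  induction hf using Subring.closure_induction with
  | mem x hx =>
    rcases hx with ⟨c, rfl⟩ | ⟨g, hg, rfl⟩
    · exact ⟨_, E.const_mem_ring c, fun τ => rfl⟩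
    · exact ⟨_, E.gen_mem_ring (Gen.Good.move hg (isUnit_redMat n γ)),
        fun τ => (E.ev_gen_smul hg γ τ).symm⟩
  | zero => exact ⟨0, zero_mem _, fun τ => by simp⟩
  | one => exact ⟨1, one_mem _, fun τ => by simp⟩
  | add x y _ _ hx hy =>
    obtain ⟨a, ha, ea⟩ := hx
    obtain ⟨b, hb, eb⟩ := hy
    exact ⟨a + b, add_mem ha hb, fun τ => by simp [ea, eb]⟩
  | neg x _ hx =>
    obtain ⟨a, ha, ea⟩ := hx
    exact ⟨-a, neg_mem ha, fun τ => by simp [ea]⟩
  | mul x y _ _ hx hy =>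
    obtain ⟨a, ha, ea⟩ := hx
    obtain ⟨b, hb, eb⟩ := hy
    exact ⟨a * b, mul_mem ha hb, fun τ => by simp [ea, eb]⟩

/-- An element of the ring is determined by its values. -/
theorem eq_of_ev {f g : E.ring} (h : ∀ τ, E.ev τ f = E.ev τ g) : f = g :=
  Subtype.ext (sub_eq_zero.mp (E.separates fun τ => by rw [map_sub, h τ, sub_self]))

/-- Substitution `f ↦ f (γτ)`. -/
def pull (γ : SL(2, ℤ)) : E.ring →+* E.ring :=
  have spec : ∀ f : E.ring, ∀ τ,
      E.ev τ (E.exists_pull γ f f.2).choose = E.ev (γ • τ) f := fun f =>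
    (E.exists_pull γ f f.2).choose_spec.2
  { toFun := fun f =>
      ⟨(E.exists_pull γ f f.2).choose, (E.exists_pull γ f f.2).choose_spec.1⟩
    map_one' := E.eq_of_ev fun τ => (spec 1 τ).trans (by simp)
    map_mul' := fun f g => E.eq_of_ev fun τ => (spec (f * g) τ).trans
      ((map_mul _ _ _).trans
        ((congrArg₂ (· * ·) (spec f τ) (spec g τ)).symm.trans (map_mul _ _ _).symm))
    map_zero' := E.eq_of_ev fun τ => (spec 0 τ).trans (by simp)
    map_add' := fun f g => E.eq_of_ev fun τ => (spec (f + g) τ).trans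
      ((map_add _ _ _).trans
        ((congrArg₂ (· + ·) (spec f τ) (spec g τ)).symm.trans (map_add _ _ _).symm)) }

/-- The value of a substituted function at `τ` is the value at `γ τ`. -/
theorem ev_pull (γ : SL(2, ℤ)) (f : E.ring) (τ : ℍ) :
    E.ev τ (E.pull γ f) = E.ev (γ • τ) f :=
  (E.exists_pull γ f f.2).choose_spec.2 τ

theorem pull_constA (γ : SL(2, ℤ)) (c : K) : E.pull γ (E.constA c) = E.constA c :=
  E.eq_of_ev fun τ => by rw [ev_pull]; rfl

theorem pull_genA (γ : SL(2, ℤ)) {g : Gen n} (hg : g.Good) :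
    E.pull γ (E.genA hg) = E.genA (Gen.Good.move hg (isUnit_redMat n γ)) :=
  E.eq_of_ev fun τ => by rw [ev_pull]; exact E.ev_gen_smul hg γ τ

theorem pull_injective (γ : SL(2, ℤ)) : Function.Injective (E.pull γ) := fun f g h =>
  E.eq_of_ev fun τ => by
    have := E.ev_pull γ f (γ⁻¹ • τ)
    rw [h, E.ev_pull, smul_inv_smul] at this
    exact this.symm

end Setup

end Fermat.Agent.Carayol.Omega
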