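import Mathlib
import Fermat.Agent.Carayol.Omega.RowSums
import Fermat.Agent.ModFun.Expansion

/-!
# Tate series of torsion coordinates and their analytic meaning

The series are `xSeries` and `ySeries`; their sums are the Weierstrass functions at torsion points
(`hasSum_xSeries`, `hasSum_ySeries`).
-/

set_option autoImplicit false

noncomputable section

open UpperHalfPlane hiding I
open Complex Function
open scoped PeriodPair Real

namespace Fermat.Agent.Carayol.Omega

open Fermat.Agent.ModFun (zetaN isPrimitiveRoot_zetaN)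

/-! ### The series -/

section Def

variable {K : Type*} [Field K] (n : ℕ) [NeZero n] (ζ : K)

/-- `H₁(e) = e/(1-e)²`, `H₂(e) = e(1+e)/(1-e)³`. -/
def rowH : Bool → K → K
  | false, e => e / (1 - e) ^ 2
  | true, e => e * (1 + e) / (1 - e) ^ 3

/-- The sign of `H` under `e ↦ 1/e`. -/
def rowSgn : Bool → K
  | false => 1
  | true => -1

/-- The exponent of `d` in the expansion of `H`. -/
def rowPow : Bool → ℕ
  | false => 1
  | true => 2

/-- Contribution of exponent `e` and index `d`. -/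
def rowTerm (p : Bool) (v : ZMod n × ZMod n) (e d : ℕ) : K :=
  (d : K) ^ rowPow p * ((if (e : ZMod n) = v.1 then ζ ^ ((d : ZMod n) * v.2).val else 0)
    + rowSgn p * (if (e : ZMod n) = -v.1 then ζ ^ (-((d : ZMod n) * v.2)).val else 0))

/-- The series of row sums in the variable `q^{1/n}`. -/
def rowSeries (p : Bool) (v : ZMod n × ZMod n) : PowerSeries K :=
  PowerSeries.mk fun k => if k = 0 then (if v.1 = 0 then rowH p (ζ ^ v.2.val) else 0)
    else ∑ d ∈ k.divisors, rowTerm n ζ p v (k / d) d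

/-- Tate series of the abscissa of the torsion point `v`. -/
def xSeries (v : ZMod n × ZMod n) : PowerSeries K :=
  PowerSeries.C (1 / 12) + rowSeries n ζ false v - rowSeries n ζ false 0

/-- Tate series of the ordinate of the torsion point `v`. -/
def ySeries (v : ZMod n × ZMod n) : PowerSeries K :=
  PowerSeries.C (1 / 2) * rowSeries n ζ true v

variable {n ζ}

theorem map_rowH {L : Type*} [Field L] (f : K →+* L) (p : Bool) (e : K) :
    f (rowH p e) = rowH p (f e) := by
  cases p <;> simp [rowH]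

omit [NeZero n] in
theorem map_rowSeries {L : Type*} [Field L] (f : K →+* L) (p : Bool) (v : ZMod n × ZMod n) :
    (rowSeries n ζ p v).map f = rowSeries n (f ζ) p v := by
  have hs : f (rowSgn p) = rowSgn p := by cases p <;> simp [rowSgn]
  ext k
  simp only [PowerSeries.coeff_map, rowSeries, PowerSeries.coeff_mk]
  split_ifs <;> simp [map_rowH, map_sum, rowTerm, hs, apply_ite f]

omit [NeZero n] in
theorem zeta_pow_val (hζ : ζ ^ n = 1) (a : ZMod n) (c : ℕ) :
    (ζ ^ c) ^ a.val = ζ ^ ((c : ZMod n) * a).val := by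
  rw [← pow_mul, pow_eq_pow_mod _ hζ]
  congr 1
  rw [ZMod.val_mul, ZMod.val_natCast]
  simp [Nat.mul_mod]

omit [NeZero n] in
theorem rowSeries_zeta_pow (hζ : ζ ^ n = 1) (c : ℕ) (p : Bool) (v : ZMod n × ZMod n) :
    rowSeries n (ζ ^ c) p v = rowSeries n ζ p (v.1, (c : ZMod n) * v.2) := by
  ext k
  simp only [rowSeries, PowerSeries.coeff_mk, rowTerm, zeta_pow_val hζ, mul_neg,
    mul_left_comm (c : ZMod n)]

omit [NeZero n] in
theorem map_xSeries {L : Type*} [Field L] (f : K →+* L) (v : ZMod n × ZMod n) :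
    (xSeries n ζ v).map f = xSeries n (f ζ) v := by
  simp [xSeries, map_rowSeries, map_ofNat]

omit [NeZero n] in
theorem map_ySeries {L : Type*} [Field L] (f : K →+* L) (v : ZMod n × ZMod n) :
    (ySeries n ζ v).map f = ySeries n (f ζ) v := by
  simp [ySeries, map_rowSeries, map_ofNat]

omit [NeZero n] in
theorem xSeries_zeta_pow (hζ : ζ ^ n = 1) (c : ℕ) (v : ZMod n × ZMod n) :
    xSeries n (ζ ^ c) v = xSeries n ζ (v.1, (c : ZMod n) * v.2) := by
  rw [xSeries, xSeries, rowSeries_zeta_pow hζ, rowSeries_zeta_pow hζ]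
  simp only [Prod.fst_zero, Prod.snd_zero, mul_zero]
  rfl

omit [NeZero n] in
theorem ySeries_zeta_pow (hζ : ζ ^ n = 1) (c : ℕ) (v : ZMod n × ZMod n) :
    ySeries n (ζ ^ c) v = ySeries n ζ (v.1, (c : ZMod n) * v.2) := by
  rw [ySeries, ySeries, rowSeries_zeta_pow hζ]

end Def

/-! ### Their values -/

section Analytic

variable (n : ℕ) [NeZero n]

theorem zetaN_pow_val (a : ZMod n) (d : ℕ) :
    (zetaN n ^ a.val) ^ d = zetaN n ^ ((d : ZMod n) * a).val := by
  rw [← pow_mul, mul_comm, pow_mul, zeta_pow_val (isPrimitiveRoot_zetaN n).pow_eq_one]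

theorem zetaN_pow_val_neg (a : ZMod n) :
    zetaN n ^ (-a).val = (zetaN n ^ a.val)⁻¹ := by
  refine eq_inv_of_mul_eq_one_left ?_
  rw [← pow_add, pow_eq_pow_mod _ (isPrimitiveRoot_zetaN n).pow_eq_one, ← ZMod.val_add]
  simp

/-- `e^{2πi (Eτ + B)/n}`. -/
def rowArg (v : ZMod n × ZMod n) (τ : ℍ) (E : ℤ) : ℂ :=
  ModFun.qFun n τ ^ E * zetaN n ^ v.2.val

theorem hasSum_rowH (p : Bool) {r : ℂ} (hr : ‖r‖ < 1) :
    HasSum (fun d : ℕ+ => ((d : ℕ) : ℂ) ^ rowPow p * r ^ (d : ℕ)) (rowH p r) := by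
  have h : HasSum (fun d : ℕ => (d : ℂ) ^ rowPow p * r ^ d) (rowH p r) := by
    cases p
    · simpa [rowPow, rowH] using hasSum_coe_mul_geometric_of_norm_lt_one hr
    · exact Wp.hasSum_sq_mul_geometric hr
  exact (PNat.coe_injective.hasSum_iff (f := fun d : ℕ => (d : ℂ) ^ rowPow p * r ^ d)
    (fun d hd => by
    rcases Nat.eq_zero_or_pos d with rfl | hd'
    · cases p <;> simp [rowPow]
    · exact absurd ⟨⟨d, hd'⟩, rfl⟩ hd)).mpr h

theorem rowH_inv (p : Bool) (e : ℂ) : rowH p e⁻¹ = rowSgn p * rowH p e := by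
  rcases eq_or_ne e 1 with rfl | h1
  · cases p <;> simp [rowH, rowSgn]
  rcases eq_or_ne e 0 with rfl | h0
  · cases p <;> simp [rowH, rowSgn]
  have h2 : (1 : ℂ) - e ≠ 0 := sub_ne_zero.mpr (Ne.symm h1)
  have h3 : e - 1 ≠ 0 := sub_ne_zero.mpr h1
  cases p <;> simp only [rowH, rowSgn] <;> field_simp <;> ring

theorem norm_rowTerm_le (p : Bool) (v : ZMod n × ZMod n) (e d : ℕ) :
    ‖rowTerm n (zetaN n) p v e d‖ ≤ 2 * (d : ℝ) ^ rowPow p := by
  have hz : ‖zetaN n‖ = 1 :=
    Complex.norm_eq_one_of_pow_eq_one (isPrimitiveRoot_zetaN n).pow_eq_one (NeZero.ne n)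
  rw [rowTerm, norm_mul, norm_pow, Complex.norm_natCast, mul_comm (2 : ℝ)]
  refine mul_le_mul_of_nonneg_left ((norm_add_le _ _).trans ?_) (by positivity)
  have hs : ‖(rowSgn p : ℂ)‖ = 1 := by cases p <;> simp [rowSgn]
  rw [norm_mul, hs, one_mul]
  have : ∀ (c : Prop) [Decidable c] (k : ℕ), ‖if c then zetaN n ^ k else (0 : ℂ)‖ ≤ 1 := by
    intro c _ k; split_ifs <;> simp [hz]
  linarith [this ((e : ZMod n) = v.1) ((d : ZMod n) * v.2).val,
    this ((e : ZMod n) = -v.1) (-((d : ZMod n) * v.2)).val]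

theorem summable_rowTerm (p : Bool) (v : ZMod n × ZMod n) {t : ℂ} (ht : ‖t‖ < 1) :
    Summable fun x : ℕ+ × ℕ+ =>
      rowTerm n (zetaN n) p v x.1 x.2 * t ^ ((x.1 : ℕ) * (x.2 : ℕ)) := by
  refine Summable.of_norm_bounded (g := fun x : ℕ+ × ℕ+ =>
    2 * (‖((x.1 : ℕ) : ℝ) ^ rowPow p * ‖t‖ ^ ((x.1 : ℕ) * (x.2 : ℕ))‖
      + ‖((x.2 : ℕ) : ℝ) ^ rowPow p * ‖t‖ ^ ((x.1 : ℕ) * (x.2 : ℕ))‖)) ?_ fun x => ?_
  · have hr : ‖(‖t‖ : ℝ)‖ < 1 := by simpa using ht
    refine ((Summable.add ?_ ?_).mul_left 2)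
    · exact ((summable_prod_mul_pow (rowPow p) hr).comp_injective
        (Equiv.prodComm ℕ+ ℕ+).injective |>.congr fun x => by simp [mul_comm]).norm
    · exact ((summable_prod_mul_pow (rowPow p) hr).congr fun x => by simp [mul_comm]).norm
  · rw [norm_mul, norm_pow]
    calc ‖rowTerm n (zetaN n) p v x.1 x.2‖ * ‖t‖ ^ ((x.1 : ℕ) * (x.2 : ℕ))
        ≤ 2 * ((x.2 : ℕ) : ℝ) ^ rowPow p * ‖t‖ ^ ((x.1 : ℕ) * (x.2 : ℕ)) := by
          gcongr; exact norm_rowTerm_le n p v _ _
      _ ≤ _ := by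
          rw [mul_assoc]
          refine mul_le_mul_of_nonneg_left (le_add_of_nonneg_of_le (norm_nonneg _) ?_) two_pos.le
          exact Real.le_norm_self _

theorem hasSum_rowTerm_fiber (p : Bool) (v : ZMod n × ZMod n) (τ : ℍ) (e : ℕ+) :
    HasSum (fun d : ℕ+ => rowTerm n (zetaN n) p v e d * ModFun.qFun n τ ^ ((e : ℕ) * (d : ℕ)))
      ((if ((e : ℕ) : ZMod n) = v.1 then rowH p (rowArg n v τ (e : ℕ)) else 0)
        + (if (((-((e : ℕ) : ℤ)) : ℤ) : ZMod n) = v.1 then rowH p (rowArg n v τ (-((e : ℕ) : ℤ)))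
            else 0)) := by
  set t := ModFun.qFun n τ with ht
  have htn : ‖t‖ < 1 := by
    rw [ht, ModFun.norm_qFun, Real.exp_lt_one_iff]
    refine div_neg_of_neg_of_pos (by nlinarith [Real.pi_pos, τ.im_pos]) ?_
    exact_mod_cast Nat.pos_of_ne_zero (NeZero.ne n)
  have hz : ‖zetaN n‖ = 1 :=
    Complex.norm_eq_one_of_pow_eq_one (isPrimitiveRoot_zetaN n).pow_eq_one (NeZero.ne n)
  have hle : ∀ a : ZMod n, ‖t ^ (e : ℕ) * zetaN n ^ a.val‖ < 1 := fun a => by
    rw [norm_mul, norm_pow, norm_pow, hz, one_pow, mul_one]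
    exact pow_lt_one₀ (norm_nonneg _) htn e.ne_zero
  -- Rows `e` and `-e` are geometric series, exchanged up to sign by inversion.
  have h1 := hasSum_rowH p (hle v.2)
  have h2 := (hasSum_rowH p (hle (-v.2))).mul_left (rowSgn p : ℂ)
  have hneg : rowH p (rowArg n v τ (-((e : ℕ) : ℤ)))
      = rowSgn p * rowH p (t ^ (e : ℕ) * zetaN n ^ (-v.2).val) := by
    rw [← rowH_inv, rowArg, zpow_neg, zpow_natCast, zetaN_pow_val_neg, mul_inv, inv_inv]
  have hpos : rowArg n v τ (e : ℕ) = t ^ (e : ℕ) * zetaN n ^ v.2.val := by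
    rw [rowArg, zpow_natCast]
  have hcond : ((((-((e : ℕ) : ℤ)) : ℤ) : ZMod n) = v.1) ↔ ((e : ℕ) : ZMod n) = -v.1 := by
    push_cast; exact neg_eq_iff_eq_neg
  rw [hpos, hneg]
  simp only [hcond]
  have e1 : HasSum (fun d : ℕ+ => if ((e : ℕ) : ZMod n) = v.1 then
      ((d : ℕ) : ℂ) ^ rowPow p * (t ^ (e : ℕ) * zetaN n ^ v.2.val) ^ (d : ℕ) else 0)
      (if ((e : ℕ) : ZMod n) = v.1 then rowH p (t ^ (e : ℕ) * zetaN n ^ v.2.val) else 0) := by
    split_ifs
    · exact h1
    · exact hasSum_zero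
  have e2 : HasSum (fun d : ℕ+ => if ((e : ℕ) : ZMod n) = -v.1 then rowSgn p *
      (((d : ℕ) : ℂ) ^ rowPow p * (t ^ (e : ℕ) * zetaN n ^ (-v.2).val) ^ (d : ℕ)) else 0)
      (if ((e : ℕ) : ZMod n) = -v.1 then
        rowSgn p * rowH p (t ^ (e : ℕ) * zetaN n ^ (-v.2).val) else 0) := by
    split_ifs
    · exact h2
    · exact hasSum_zero
  -- Add them up.
  refine (e1.add e2).congr_fun fun d => ?_
  simp only [rowTerm, mul_pow, ← pow_mul, mul_add, add_mul, mul_ite, mul_zero, ite_mul, zero_mul]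
  congr 1
  all_goals
    split_ifs
    · rw [pow_mul (zetaN n), zetaN_pow_val]
      try simp only [mul_neg]
      ring
    · rfl

/-- A convergent sum over rows is the value of the series. -/
theorem hasSum_rowSeries (p : Bool) (v : ZMod n × ZMod n) (τ : ℍ) {V : ℂ}
    (hV : HasSum (fun m : ℤ => rowH p (rowArg n v τ (v.1.val + n * m))) V) :
    HasSum (fun k => (rowSeries n (zetaN n) p v).coeff k * ModFun.qFun n τ ^ k) V := by
  set t := ModFun.qFun n τ with ht
  have htn : ‖t‖ < 1 := by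
    rw [ht, ModFun.norm_qFun, Real.exp_lt_one_iff]
    refine div_neg_of_neg_of_pos (by nlinarith [Real.pi_pos, τ.im_pos]) ?_
    exact_mod_cast Nat.pos_of_ne_zero (NeZero.ne n)
  -- Extend the sum to all integers congruent to the first label.
  set g : ℤ → ℂ := fun E => if (E : ZMod n) = v.1 then rowH p (rowArg n v τ E) else 0 with hg
  have hinj : Injective fun m : ℤ => (v.1.val : ℤ) + n * m := fun a b h =>
    mul_left_cancel₀ (Int.natCast_ne_zero.mpr (NeZero.ne n)) (add_left_cancel h)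
  have hgV : HasSum g V := by
    refine (hinj.hasSum_iff fun E hE => ?_).mp ?_
    · refine if_neg fun h => hE ?_
      have : (n : ℤ) ∣ E - v.1.val :=
        (ZMod.intCast_zmod_eq_zero_iff_dvd _ _).mp (by push_cast; simp [h])
      obtain ⟨m, hm⟩ := this
      exact ⟨m, by simp only; rw [← hm]; ring⟩
    · convert hV using 2 with m
      rw [comp_apply, hg]
      exact if_pos (by push_cast; simp)
  set c₀ : ℂ := if v.1 = 0 then rowH p (zetaN n ^ v.2.val) else 0 with hc0
  have hg0 : g 0 = c₀ := by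
    simp only [hg, hc0, rowArg, Int.cast_zero, zpow_zero, one_mul]
    rcases eq_or_ne v.1 0 with h | h
    · rw [if_pos h, if_pos h.symm]
    · rw [if_neg h, if_neg (Ne.symm h)]
  have hnat : HasSum (fun m : ℕ => g m + g (-m)) (V + c₀) := hg0 ▸ hgV.nat_add_neg
  -- Pair each row with its opposite, setting the zeroth apart.
  have hpn : HasSum (fun e : ℕ+ => g (e : ℕ) + g (-((e : ℕ) : ℤ))) (V - c₀) := by
    have h1 := (hasSum_nat_add_iff' (f := fun m : ℕ => g m + g (-m)) 1).mpr hnat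
    simp only [Finset.sum_range_one, Nat.cast_zero, neg_zero, hg0] at h1
    rw [show V + c₀ - (c₀ + c₀) = V - c₀ by ring] at h1
    exact (Equiv.pnatEquivNat.symm.hasSum_iff
      (f := fun e : ℕ+ => g (e : ℕ) + g (-((e : ℕ) : ℤ)))).mp (h1.congr_fun fun m => by simp)
  have hsum := summable_rowTerm n p v htn
  -- Sum row by row, then regroup by the exponent `e d`.
  have hfib := hsum.hasSum.prod_fiberwise (g := fun e : ℕ+ => g (e : ℕ) + g (-((e : ℕ) : ℤ)))
    fun e => by
      have := hasSum_rowTerm_fiber n p v τ e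
      simpa [hg] using this
  have hW : (∑' x : ℕ+ × ℕ+, rowTerm n (zetaN n) p v x.1 x.2 * t ^ ((x.1 : ℕ) * (x.2 : ℕ)))
      = V - c₀ := hfib.unique hpn
  have hsig := (sigmaAntidiagonalEquivProd.hasSum_iff).mpr (hW ▸ hsum.hasSum)
  have hk : HasSum (fun k : ℕ+ => (rowSeries n (zetaN n) p v).coeff k * t ^ (k : ℕ)) (V - c₀) := by
    refine hsig.sigma fun k => ?_
    convert hasSum_fintype (fun c : (Nat.divisorsAntidiagonal (k : ℕ)) =>
      ((fun x : ℕ+ × ℕ+ => rowTerm n (zetaN n) p v x.1 x.2 * t ^ ((x.1 : ℕ) * (x.2 : ℕ))) ∘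
        sigmaAntidiagonalEquivProd) ⟨k, c⟩) using 1
    simp only [rowSeries, PowerSeries.coeff_mk, if_neg k.ne_zero, Finset.sum_mul, comp_apply,
      sigmaAntidiagonalEquivProd, divisorsAntidiagonalFactors, Equiv.coe_fn_mk, PNat.mk_coe]
    rw [Finset.univ_eq_attach,
      Finset.sum_attach ((k : ℕ).divisorsAntidiagonal)
        (fun x => rowTerm n (zetaN n) p v x.1 x.2 * t ^ (x.1 * x.2)),
      Nat.sum_divisorsAntidiagonal' fun a b => rowTerm n (zetaN n) p v a b * t ^ (a * b)]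
    refine Finset.sum_congr rfl fun d hd => ?_
    rw [Nat.div_mul_cancel (Nat.dvd_of_mem_divisors hd)]
  have h0 : (rowSeries n (zetaN n) p v).coeff 0 * t ^ 0 = c₀ := by
    simp [rowSeries, hc0]
  refine (hasSum_nat_add_iff' 1).mp ?_
  simp only [Finset.sum_range_one, h0]
  exact (Equiv.pnatEquivNat.symm.hasSum_iff
    (f := fun k : ℕ+ => (rowSeries n (zetaN n) p v).coeff k * t ^ (k : ℕ))).mpr hk |>.congr_fun
    fun m => by simp

theorem hasSum_C (c t : ℂ) : HasSum (fun k => (PowerSeries.C c).coeff k * t ^ k) c := by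
  convert hasSum_ite_eq (0 : ℕ) c using 2 with k
  rw [PowerSeries.coeff_C]
  split_ifs with h <;> simp [h]

/-- The argument `(aτ + b)/n`. -/
def torsArg (v : ZMod n × ZMod n) (τ : ℍ) : ℂ := ((v.1.val : ℂ) * τ + v.2.val) / n

theorem expTwoPi_torsArg (v : ZMod n × ZMod n) (τ : ℍ) (m : ℤ) :
    Wp.expTwoPi (torsArg n v τ + m * τ) = rowArg n v τ (v.1.val + n * m) := by
  have hn : (n : ℂ) ≠ 0 := Nat.cast_ne_zero.mpr (NeZero.ne n)
  simp only [Wp.expTwoPi, torsArg, rowArg, ModFun.qFun, Periodic.qParam, zetaN]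
  rw [← Complex.exp_nat_mul, ← Complex.exp_int_mul, ← Complex.exp_add]
  congr 1
  push_cast
  field_simp
  ring

/-- A torsion argument is a period only for the zero label. -/
theorem torsArg_mem_iff (v : ZMod n × ZMod n) (τ : ℍ) :
    torsArg n v τ ∈ (Wp.pairTau τ).lattice ↔ v = 0 := by
  constructor
  · intro h
    obtain ⟨a, b, hab⟩ := Wp.mem_pairTau.mp h
    have hn : (n : ℂ) ≠ 0 := Nat.cast_ne_zero.mpr (NeZero.ne n)
    rw [torsArg, eq_div_iff hn] at hab
    have him := congrArg Complex.im hab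
    simp [-ZMod.natCast_val] at him
    have h1 : (a : ℝ) * n = v.1.val := mul_right_cancel₀ τ.im_pos.ne' (by linarith)
    have hre := congrArg Complex.re hab
    simp [-ZMod.natCast_val] at hre
    have h2 : (b : ℝ) * n = v.2.val := by linear_combination hre - (τ.re) * h1
    have ha : a * n = (v.1.val : ℤ) := by exact_mod_cast h1
    have hb : b * n = (v.2.val : ℤ) := by exact_mod_cast h2
    have e1 : v.1 = 0 := by
      have := congrArg (fun x : ℤ => (x : ZMod n)) ha
      simpa using this.symm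
    have e2 : v.2 = 0 := by
      have := congrArg (fun x : ℤ => (x : ZMod n)) hb
      simpa using this.symm
    exact Prod.ext e1 e2
  · rintro rfl
    simp [torsArg]

theorem no_int_of_notMem {τ : ℍ} {z : ℂ} (hz : z ∉ (Wp.pairTau τ).lattice) (m j : ℤ) :
    z + m * τ + j ≠ 0 := fun h => hz <| by
  rw [show z = -((m : ℂ) * τ + j) by linear_combination h]
  exact neg_mem (Wp.mem_pairTau.mpr ⟨m, j, rfl⟩)

/-- The expansion of `℘'((aτ+b)/n) / (2 (2πi)³)`. -/
theorem hasSum_ySeries {v : ZMod n × ZMod n} (hv : v ≠ 0) (τ : ℍ) :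
    HasSum (fun k => (ySeries n (zetaN n) v).coeff k * ModFun.qFun n τ ^ k)
      (℘'[Wp.pairTau τ] (torsArg n v τ) / (2 * (2 * π * I) ^ 3)) := by
  have hz : torsArg n v τ ∉ (Wp.pairTau τ).lattice := (torsArg_mem_iff n v τ).not.mpr hv
  have h := (Wp.hasSum_rows τ (torsArg n v τ)).div_const ((2 * π * I) ^ 3)
  have hrow : HasSum (fun m : ℤ => rowH true (rowArg n v τ (v.1.val + n * m)))
      (℘'[Wp.pairTau τ] (torsArg n v τ) / (2 * π * I) ^ 3) := by
    refine h.congr_fun fun m => ?_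
    rw [Wp.rowSum_eq fun j => no_int_of_notMem hz m j, Wp.rowClosed, expTwoPi_torsArg]
    simp only [rowH]
    field_simp
  have := ((hasSum_rowSeries n true v τ hrow).mul_left (1 / 2 : ℂ)).congr_fun
    (g := fun k => (ySeries n (zetaN n) v).coeff k * ModFun.qFun n τ ^ k) fun k => by
      rw [ySeries, PowerSeries.coeff_C_mul]; ring
  rwa [show (℘'[Wp.pairTau τ] (torsArg n v τ) / (2 * (2 * π * I) ^ 3))
    = 1 / 2 * (℘'[Wp.pairTau τ] (torsArg n v τ) / (2 * π * I) ^ 3) by ring]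

/-- The expansion of `℘((aτ+b)/n) / (2πi)²`. -/
theorem hasSum_xSeries {v : ZMod n × ZMod n} (hv : v ≠ 0) (τ : ℍ) :
    HasSum (fun k => (xSeries n (zetaN n) v).coeff k * ModFun.qFun n τ ^ k)
      (℘[Wp.pairTau τ] (torsArg n v τ) / (2 * π * I) ^ 2) := by
  have hz : torsArg n v τ ∉ (Wp.pairTau τ).lattice := (torsArg_mem_iff n v τ).not.mpr hv
  have htn : ‖ModFun.qFun n τ‖ < 1 := by
    rw [ModFun.norm_qFun, Real.exp_lt_one_iff]
    refine div_neg_of_neg_of_pos (by nlinarith [Real.pi_pos, τ.im_pos]) ?_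
    exact_mod_cast Nat.pos_of_ne_zero (NeZero.ne n)
  -- the rows of the lattice itself
  have hB : Summable fun m : ℤ => rowH false (rowArg n 0 τ ((0 : ZMod n).val + n * m)) := by
    have hsum := summable_rowTerm n false (0 : ZMod n × ZMod n) htn
    set g : ℤ → ℂ := fun E => if (E : ZMod n) = 0 then rowH false (rowArg n 0 τ E) else 0 with hg
    have hfib := hsum.hasSum.prod_fiberwise
      (g := fun e : ℕ+ => g (e : ℕ) + g (-((e : ℕ) : ℤ))) fun e => by
        have := hasSum_rowTerm_fiber n false (0 : ZMod n × ZMod n) τ e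
        simpa [hg] using this
    have hev : ∀ E : ℤ, g (-E) = g E := fun E => by
      simp only [hg, Int.cast_neg, neg_eq_zero, rowArg, Prod.snd_zero, ZMod.val_zero, pow_zero,
        mul_one, zpow_neg, rowH_inv, rowSgn, one_mul]
    have hs : Summable fun e : ℕ+ => g (e : ℕ) := by
      refine (hfib.summable.div_const 2).congr fun e => ?_
      rw [hev]; ring
    have hs' : Summable fun m : ℕ => g m := by
      rw [← summable_nat_add_iff 1]
      exact (Equiv.pnatEquivNat.symm.summable_iff (f := fun e : ℕ+ => g (e : ℕ))).mpr hs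
        |>.congr fun m => by simp
    have hall : Summable g := Summable.of_nat_of_neg hs' (by simpa only [hev] using hs')
    refine (hall.comp_injective (i := fun m : ℤ => ((0 : ZMod n).val : ℤ) + n * m)
      fun a b h => mul_left_cancel₀ (Int.natCast_ne_zero.mpr (NeZero.ne n))
        (add_left_cancel h)).congr fun m => ?_
    rw [comp_apply, hg]
    exact if_pos (by push_cast; simp)
  have hrows := (hasSum_weierstrassP_rows τ (torsArg n v τ)).div_const ((2 * π * I) ^ 2)
  have hB' := hB.hasSum.sub (hasSum_ite_eq (0 : ℤ) (1 / 12 : ℂ))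
  set SB := ∑' m : ℤ, rowH false (rowArg n 0 τ ((0 : ZMod n).val + n * m)) with hSB
  have hAsum : HasSum (fun m : ℤ => rowH false (rowArg n v τ (v.1.val + n * m)))
      (℘[Wp.pairTau τ] (torsArg n v τ) / (2 * π * I) ^ 2 + (SB - 1 / 12)) := by
    refine (hrows.add hB').congr_fun fun m => ?_
    rw [rowTwo_eq fun j => no_int_of_notMem hz m j, rowTwoClosed, expTwoPi_torsArg]
    rcases eq_or_ne m 0 with rfl | hm
    · simp only [Int.cast_zero, zero_mul, rowTwo_zero, if_true]
      simp [rowH, rowArg]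
      have hpi : (π : ℂ) ≠ 0 := Complex.ofReal_ne_zero.mpr Real.pi_ne_zero
      field_simp
      ring_nf
      simp [Complex.I_sq]
    · have hne : ∀ j : ℤ, (m : ℂ) * τ + j ≠ 0 := fun j h => hm (by
        have := congrArg Complex.im h
        simpa [τ.im_pos.ne'] using this)
      have e0 : torsArg n 0 τ = 0 := by simp [torsArg]
      have e := expTwoPi_torsArg n 0 τ m
      rw [e0, zero_add] at e
      simp only [Prod.fst_zero] at e
      rw [rowTwo_eq hne, rowTwoClosed, e, if_neg hm]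
      simp only [rowH]
      field_simp
      ring
  have hA := hasSum_rowSeries n false v τ hAsum
  have hZ := hasSum_rowSeries n false (0 : ZMod n × ZMod n) τ hB.hasSum
  have := (((hasSum_C (1 / 12 : ℂ) (ModFun.qFun n τ)).add hA).sub hZ).congr_fun
    (g := fun k => (xSeries n (zetaN n) v).coeff k * ModFun.qFun n τ ^ k) fun k => by
      simp only [xSeries, map_sub, map_add]; ring
  rwa [show (℘[Wp.pairTau τ] (torsArg n v τ) / (2 * π * I) ^ 2)
    = 1 / 12 + (℘[Wp.pairTau τ] (torsArg n v τ) / (2 * π * I) ^ 2 + (SB - 1 / 12)) - SB by ring]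

end Analytic

end Fermat.Agent.Carayol.Omega
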